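import Mathlib
import Fermat.Prelude.Def_ModularCurve_ArithmeticGalois
import Fermat.Prelude.Def_ModularCurve_X0ModL
import Fermat.Prelude.Def_AlgebraicCurve_Correspondence

/-!
# Program DS, package (C) : the curves `X₁(M)` and `X(Γ₁(M) ∩ Γ₀(P))` in `q`-expansion language
DEFINITIONS (P0).  Chief: helper29.  Namespace `Fermat.Agent.DS`, prefix `dsc` / `Dsc`.

MODEL.  `τ ↦ (E', P') = (ℂ/⟨1, Mτ⟩, τ)` identifies `Γ₁(M)\ℍ` with the pairs (curve, point of exact
order `M`).  With `q = e^{2πiτ}` the curve is the Tate curve `𝔾ₘ/q^{Mℤ}` and `P' = q`; the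
`x`-coordinate of `k·P'` (`0 < k < M`) is, up to the additive constant common to all `k`,

  `X̃_k(q) = ∑_{m ∈ ℤ} q^{Mm+k}/(1 - q^{Mm+k})² = ∑_{n ≥ 1} (∑_{e ∣ n, n/e ≡ ±k (M)} e) qⁿ ∈ ℤ[[q]]`

(`dscX M k`; codivisor `≡ k` and codivisor `≡ -k` are counted separately).  The CROSS-RATIOS

  `R_{a,b,c}(q) = (X̃_a - X̃_b)/(X̃_a - X̃_c)`   (`dscR M a b c`)

are `Γ₁(M)`-invariant MODULAR UNITS with INTEGRAL `q`-expansion at `∞` (leading coefficients `1`),
so they make sense over every commutative ring.  The diamond operator `⟨d⟩` acts by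
`R_{a,b,c} ↦ R_{da,db,dc}`.

* `dscGen M P`  : the generators `j(q^d)` (`d ∣ M·P`) and `R_{a,b,c}(q^e)` (`e ∣ P`);
* `dscField M P : IntermediateField ℚ ℚ((q))` : the function field of `X(Γ₁(M) ∩ Γ₀(P))` over `ℚ`
  (`P = 1` : of `X₁(M)`); it CONTAINS the Prelude field `modularFunctionFieldFull (M*P)` by
  definition;
* `dscFieldC K M P` : the same over an arbitrary field `K` (for the special fibres);
* `dscFieldBar M P := laurentBaseChange ℚ̄ (dscField M P)`, so the Prelude's GENERIC coefficientwise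
  Galois action `arithmeticGalois` and the `DistribMulAction` on `Pic⁰` apply verbatim;
* `DscJ M := Pic⁰ ℚ̄ (dscFieldBar M 1)` = `J₁(M)(ℚ̄)` with its Galois action;
* the two degeneracy maps `dscAlpha` (inclusion) and `dscBeta` (`q ↦ q^p`) of the Hecke
  correspondence `T_p`.
-/

set_option autoImplicit false

noncomputable section

namespace Fermat.Agent.DS

open ModularCurve IntermediateField HahnSeries AlgebraicCurve

/-- `X̃_k(q) = ∑_{n ≥ 1} (∑_{e ∣ n, n/e ≡ k} e + ∑_{e ∣ n, n/e ≡ -k} e) qⁿ`. -/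
def dscX (M : ℕ) (k : ZMod M) : PowerSeries ℤ :=
  PowerSeries.mk fun n => ∑ e ∈ n.divisors,
    ((if ((n / e : ℕ) : ZMod M) = k then (e : ℤ) else 0) +
      (if ((n / e : ℕ) : ZMod M) = -k then (e : ℤ) else 0))

/-- `X̃_k` as a Laurent series over a commutative ring `R`. -/
def dscXR (R : Type*) [CommRing R] (M : ℕ) (k : ZMod M) : LaurentSeries R :=
  HahnSeries.ofPowerSeries ℤ R ((dscX M k).map (Int.castRingHom R))

/-- the cross-ratio `R_{a,b,c} = (X̃_a - X̃_b)/(X̃_a - X̃_c)` over a field `K`. -/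
def dscR (K : Type*) [Field K] (M : ℕ) (a b c : ZMod M) : LaurentSeries K :=
  (dscXR K M a - dscXR K M b) / (dscXR K M a - dscXR K M c)

/-- admissible triples: `±a, ±b, ±c` pairwise distinct and nonzero. -/
def DscAdm (M : ℕ) (a b c : ZMod M) : Prop :=
  a ≠ 0 ∧ b ≠ 0 ∧ c ≠ 0 ∧ a ≠ b ∧ a ≠ -b ∧ a ≠ c ∧ a ≠ -c ∧ b ≠ c ∧ b ≠ -c

/-- the generators of the function field of `X(Γ₁(M) ∩ Γ₀(P))` over `K`. -/
def dscGen (K : Type*) [Field K] (M P : ℕ) : Set (LaurentSeries K) :=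
  {x | ∃ (d : ℕ) (_ : NeZero d), d ∣ M * P ∧ x = qExpand K d (jqModC K)} ∪
  {x | ∃ (e : ℕ) (_ : NeZero e) (a b c : ZMod M), e ∣ P ∧ DscAdm M a b c ∧
    x = qExpand K e (dscR K M a b c)}

/-- the function field of `X(Γ₁(M) ∩ Γ₀(P))` over an arbitrary field `K`, inside `K((q))`. -/
def dscFieldC (K : Type*) [Field K] (M P : ℕ) : IntermediateField K (LaurentSeries K) :=
  IntermediateField.adjoin K (dscGen K M P)

/-- the function field of `X(Γ₁(M) ∩ Γ₀(P))` over `ℚ` (rational `q`-expansions at `∞`). -/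
def dscField (M P : ℕ) : IntermediateField ℚ (LaurentSeries ℚ) := dscFieldC ℚ M P

/-- the function field of `X(Γ₁(M) ∩ Γ₀(P))` over `ℚ̄`, with the coefficientwise Galois action. -/
abbrev dscFieldBar (M P : ℕ) :
    IntermediateField (AlgebraicClosure ℚ) (LaurentSeries (AlgebraicClosure ℚ)) :=
  laurentBaseChange (AlgebraicClosure ℚ) (dscField M P)

/-- `J₁(M)(ℚ̄)` : the degree zero divisor classes of `X₁(M)`, with its Galois action. -/
abbrev DscJ (M : ℕ) : Type _ := Pic0 (AlgebraicClosure ℚ) (dscFieldBar M 1)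

example (M : ℕ) :
    DistribMulAction (AlgebraicClosure ℚ ≃ₐ[ℚ] AlgebraicClosure ℚ) (DscJ M) := inferInstance

/-- the Prelude field of `X₀(M·P)` is contained in the field of `X(Γ₁(M) ∩ Γ₀(P))`. -/
theorem dsc_full_le (K : Type*) [Field K] (M P : ℕ) [NeZero (M * P)] :
    modularFunctionFieldFullC K (M * P) ≤ dscFieldC K M P := by
  rw [modularFunctionFieldFullC, adjoin_le_iff]
  rintro x ⟨d, hd0, hd, rfl⟩
  exact subset_adjoin K _ (Or.inl ⟨d, hd0, hd, rfl⟩)

/-- monotonicity in `P` : `X(Γ₁(M) ∩ Γ₀(P'))` covers `X(Γ₁(M) ∩ Γ₀(P))` for `P ∣ P'`. -/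
theorem dsc_field_mono (K : Type*) [Field K] (M : ℕ) {P P' : ℕ} (h : P ∣ P') :
    dscFieldC K M P ≤ dscFieldC K M P' := by
  rw [dscFieldC, adjoin_le_iff]
  rintro x (⟨d, hd0, hd, rfl⟩ | ⟨e, he0, a, b, c, he, hadm, rfl⟩)
  · exact subset_adjoin K _ (Or.inl ⟨d, hd0, hd.trans (Nat.mul_dvd_mul_left M h), rfl⟩)
  · exact subset_adjoin K _ (Or.inr ⟨e, he0, a, b, c, he.trans h, hadm, rfl⟩)

/-- `q ↦ q^p` maps the generators of level `(M, P)` to generators of level `(M, P·p)`. -/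
theorem dsc_qExpand_mem (K : Type*) [Field K] (M P p : ℕ) [NeZero p] {x : LaurentSeries K}
    (hx : x ∈ dscGen K M P) : qExpand K p x ∈ dscGen K M (P * p) := by
  rcases hx with ⟨d, hd0, hd, rfl⟩ | ⟨e, he0, a, b, c, he, hadm, rfl⟩
  · haveI : NeZero (p * d) := ⟨Nat.mul_ne_zero (NeZero.ne p) (NeZero.ne d)⟩
    refine Or.inl ⟨p * d, inferInstance, ?_, (qExpand_qExpand d p _)⟩
    rw [← mul_assoc, mul_comm p d]
    exact Nat.mul_dvd_mul hd (dvd_refl p) |>.trans (by rw [mul_assoc])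
  · haveI : NeZero (p * e) := ⟨Nat.mul_ne_zero (NeZero.ne p) (NeZero.ne e)⟩
    refine Or.inr ⟨p * e, inferInstance, a, b, c, ?_, hadm, (qExpand_qExpand e p _)⟩
    rw [mul_comm p e]
    exact Nat.mul_dvd_mul he (dvd_refl p)

end Fermat.Agent.DS
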