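import Mathlib
import Fermat.Agent.DS.C.Defs
import Fermat.Prelude.Def_ModularCurve_HeckeOperatorTotal

/-!
# Program DS, package (C), row C0 : the Hecke correspondences of `X₁(M)` (DEFINITIONS)

Port of the Prelude files `Def_ModularCurve_HeckeOperator`, `Def_ModularCurve_HeckeOperatorTotal`,
`Def_ModularCurve_HeckeModule` from `modularFunctionFieldFull N` to `dscField M P`:

* `dscAlphaBar L M P p`, `dscBetaBar L M P p : dscField M P ⊗ L →ₐ[L] dscField M (P*p) ⊗ L`
  (inclusion, `q ↦ q^p`);
* `DscHeckeInputsAlong L M P p`, `dscHeckeAlong L M P p` (total, `= 0` when the inputs fail);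
* `dscHeckeBar M p : Module.End ℤ (DscJ M)` for `p : Nat.Primes`  (`= T_p` or `T_p^*`, see the blueprint).
-/

set_option autoImplicit false
set_option linter.unusedSectionVars false

noncomputable section

namespace Fermat.Agent.DS

open ModularCurve IntermediateField HahnSeries AlgebraicCurve

section Supply

theorem dsc_coeffMap_qExpand {R S : Type*} [CommRing R] [CommRing S] (f : R →+* S) (n : ℕ)
    [NeZero n] (x : LaurentSeries R) : coeffMap f (qExpand R n x) = qExpand S n (coeffMap f x) := by
  ext k
  by_cases hk : (n : ℤ) ∣ k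
  · obtain ⟨m, rfl⟩ := hk
    rw [coeffMap_coeff, qExpand_coeff_mul, qExpand_coeff_mul, coeffMap_coeff]
  · rw [coeffMap_coeff, qExpand_coeff_of_not_dvd n _ hk, qExpand_coeff_of_not_dvd n _ hk,
      map_zero]

theorem dsc_coeffEmb_qExpand (L : Type*) [Field L] [Algebra ℚ L] (n : ℕ) [NeZero n]
    (x : LaurentSeries ℚ) : coeffEmb L (qExpand ℚ n x) = qExpand L n (coeffEmb L x) :=
  dsc_coeffMap_qExpand _ n x

theorem dsc_laurentBaseChange_mono (L : Type*) [Field L] [Algebra ℚ L]
    {F₀ F₁ : IntermediateField ℚ (LaurentSeries ℚ)}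
    (h : F₀ ≤ F₁) : laurentBaseChange L F₀ ≤ laurentBaseChange L F₁ := by
  rw [laurentBaseChange, IntermediateField.adjoin_le_iff]
  rintro _ ⟨y, hy, rfl⟩
  exact coeffEmb_mem_laurentBaseChange L (h hy)

theorem dsc_qExpand_mem_laurentBaseChange {L : Type*} [Field L] [Algebra ℚ L]
    {F₀ : IntermediateField ℚ (LaurentSeries ℚ)} (n : ℕ)
    [NeZero n] {F₁ : IntermediateField ℚ (LaurentSeries ℚ)} (hF : ∀ y ∈ F₀, qExpand ℚ n y ∈ F₁)
    {x : LaurentSeries L} (hx : x ∈ laurentBaseChange L F₀) :
    qExpand L n x ∈ laurentBaseChange L F₁ := by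
  rw [mem_laurentBaseChange_iff] at hx
  induction hx using Subfield.closure_induction with
  | mem y hy =>
      rcases hy with ⟨a, rfl⟩ | ⟨z, hz, rfl⟩
      · rw [algebraMap_laurentSeries_eq_single, qExpand_single, mul_zero,
          ← algebraMap_laurentSeries_eq_single]
        exact (laurentBaseChange L F₁).algebraMap_mem _
      · rw [← dsc_coeffEmb_qExpand]
        exact coeffEmb_mem_laurentBaseChange L (hF z hz)
  | one => simp
  | add x y _ _ hx hy => simpa using add_mem hx hy
  | neg x _ hx => simpa using neg_mem hx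
  | inv x _ hx => simpa using inv_mem hx
  | mul x y _ _ hx hy => simpa using mul_mem hx hy

/-- `q ↦ q^p` maps the field of level `(M, P)` into the field of level `(M, P·p)`. -/
theorem dsc_qExpand_mem_field (K : Type*) [Field K] (M P p : ℕ) [NeZero p] {y : LaurentSeries K}
    (hy : y ∈ dscFieldC K M P) : qExpand K p y ∈ dscFieldC K M (P * p) := by
  rw [dscFieldC, ← IntermediateField.mem_toSubfield, IntermediateField.adjoin_toSubfield] at hy
  induction hy using Subfield.closure_induction with
  | mem y hy =>
      rcases hy with ⟨a, rfl⟩ | hy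
      · show qExpand K p (algebraMap K (LaurentSeries K) a) ∈ _
        rw [algebraMap_laurentSeries_eq_single, qExpand_single, mul_zero,
          ← algebraMap_laurentSeries_eq_single]
        exact (dscFieldC K M (P * p)).algebraMap_mem a
      · exact subset_adjoin K _ (dsc_qExpand_mem K M P p hy)
  | one => simp
  | add x y _ _ hx hy => simpa using add_mem hx hy
  | neg x _ hx => simpa using neg_mem hx
  | inv x _ hx => simpa using inv_mem hx
  | mul x y _ _ hx hy => simpa using mul_mem hx hy

end Supply

variable {L : Type*} [Field L] [Algebra ℚ L]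
variable (M P p : ℕ) [NeZero p]

section DegeneracyMapsBar

variable (L) in
/-- `α` : the inclusion of the field of level `(M, P)` into the field of level `(M, P·p)`. -/
def dscAlphaBar :
    laurentBaseChange L (dscField M P) →ₐ[L] laurentBaseChange L (dscField M (P * p)) :=
  IntermediateField.inclusion
    (dsc_laurentBaseChange_mono L (dsc_field_mono ℚ M (dvd_mul_right P p)))

@[simp]
theorem coe_dscAlphaBar (x : laurentBaseChange L (dscField M P)) :
    (dscAlphaBar L M P p x : LaurentSeries L) = (x : LaurentSeries L) :=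
  IntermediateField.coe_inclusion _ x

variable (L) in
/-- `β` as a ring homomorphism: `q ↦ q^p`. -/
def dscBetaBarRingHom :
    laurentBaseChange L (dscField M P) →+* laurentBaseChange L (dscField M (P * p)) where
  toFun x := ⟨qExpand L p (x : LaurentSeries L),
    dsc_qExpand_mem_laurentBaseChange p
      (fun _ hy => dsc_qExpand_mem_field ℚ M P p hy) x.2⟩
  map_one' := Subtype.ext (map_one (qExpand L p))
  map_mul' _ _ := Subtype.ext (map_mul (qExpand L p) _ _)
  map_zero' := Subtype.ext (map_zero (qExpand L p))
  map_add' _ _ := Subtype.ext (map_add (qExpand L p) _ _)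

@[simp]
theorem coe_dscBetaBarRingHom (x : laurentBaseChange L (dscField M P)) :
    (dscBetaBarRingHom L M P p x : LaurentSeries L) = qExpand L p (x : LaurentSeries L) :=
  rfl

variable (L) in
/-- `β` : `q ↦ q^p`, from level `(M, P)` to level `(M, P·p)`. -/
def dscBetaBar :
    laurentBaseChange L (dscField M P) →ₐ[L] laurentBaseChange L (dscField M (P * p)) :=
  { dscBetaBarRingHom L M P p with
    commutes' := fun a => Subtype.ext <| by
      show qExpand L p (algebraMap L (LaurentSeries L) a) = algebraMap L (LaurentSeries L) a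
      rw [algebraMap_laurentSeries_eq_single, qExpand_single, mul_zero] }

@[simp]
theorem coe_dscBetaBar (x : laurentBaseChange L (dscField M P)) :
    (dscBetaBar L M P p x : LaurentSeries L) = qExpand L p (x : LaurentSeries L) :=
  rfl

end DegeneracyMapsBar

section Total

variable (L)

/-- `α` is integral (the extension of function fields is algebraic). -/
def DscAlphaBarIntegral : Prop := (dscAlphaBar L M P p).toRingHom.IsIntegral

/-- `β` is integral. -/
def DscBetaBarIntegral : Prop := (dscBetaBar L M P p).toRingHom.IsIntegral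

/-- the inputs which make the Hecke correspondence of level `(M, P)` at `p` well defined on `Pic⁰`
(same shape as the Prelude's `HeckeInputsAlong`). -/
def DscHeckeInputsAlong : Prop :=
  ∃ (_ : DscAlphaBarIntegral L M P p) (hβ : DscBetaBarIntegral L M P p)
    (_ : HasPrincipalDivisors L (laurentBaseChange L (dscField M (P * p))))
    (hfin : FiniteAlong L (dscAlphaBar L M P p)),
    FundamentalIdentityAlong L (dscBetaBar L M P p) hβ ∧
      NormFormulaAlong L (dscAlphaBar L M P p) hfin

open Classical in
/-- the Hecke correspondence `α_* β^*` on `Pic⁰` of the curve of level `(M, P)` over `L`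
(`= 0` if the inputs fail; they hold, see row C5/FF). -/
def dscHeckeAlong :
    Pic0 L (laurentBaseChange L (dscField M P)) →+ Pic0 L (laurentBaseChange L (dscField M P)) :=
  if h : DscHeckeInputsAlong L M P p then
    haveI := h.snd.snd.fst
    Pic0.correspondence (dscBetaBar L M P p) (dscAlphaBar L M P p) h.snd.fst h.fst
      h.snd.snd.snd.snd.1 h.snd.snd.snd.fst h.snd.snd.snd.snd.2
  else 0

open Classical in
/-- the transposed correspondence `β_* α^*` (`= 0` if its inputs fail). -/
def dscHeckeAlongTr :
    Pic0 L (laurentBaseChange L (dscField M P)) →+ Pic0 L (laurentBaseChange L (dscField M P)) :=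
  if h : ∃ (hα : DscAlphaBarIntegral L M P p) (_ : DscBetaBarIntegral L M P p)
      (_ : HasPrincipalDivisors L (laurentBaseChange L (dscField M (P * p))))
      (hfin : FiniteAlong L (dscBetaBar L M P p)),
      FundamentalIdentityAlong L (dscAlphaBar L M P p) hα ∧
        NormFormulaAlong L (dscBetaBar L M P p) hfin then
    haveI := h.snd.snd.fst
    Pic0.correspondence (dscAlphaBar L M P p) (dscBetaBar L M P p) h.fst h.snd.fst
      h.snd.snd.snd.snd.1 h.snd.snd.snd.fst h.snd.snd.snd.snd.2
  else 0

variable {L M P p}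

theorem dscHeckeInputsAlong_intro (hα : DscAlphaBarIntegral L M P p)
    (hβ : DscBetaBarIntegral L M P p)
    [hP : HasPrincipalDivisors L (laurentBaseChange L (dscField M (P * p)))]
    (hFI : FundamentalIdentityAlong L (dscBetaBar L M P p) hβ)
    (hfin : FiniteAlong L (dscAlphaBar L M P p))
    (hN : NormFormulaAlong L (dscAlphaBar L M P p) hfin) : DscHeckeInputsAlong L M P p :=
  ⟨hα, hβ, hP, hfin, hFI, hN⟩

theorem dscHeckeAlong_eq (hα : DscAlphaBarIntegral L M P p) (hβ : DscBetaBarIntegral L M P p)
    [HasPrincipalDivisors L (laurentBaseChange L (dscField M (P * p)))]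
    (hFI : FundamentalIdentityAlong L (dscBetaBar L M P p) hβ)
    (hfin : FiniteAlong L (dscAlphaBar L M P p))
    (hN : NormFormulaAlong L (dscAlphaBar L M P p) hfin) :
    dscHeckeAlong L M P p =
      Pic0.correspondence (dscBetaBar L M P p) (dscAlphaBar L M P p) hβ hα hFI hfin hN := by
  have h : DscHeckeInputsAlong L M P p := dscHeckeInputsAlong_intro hα hβ hFI hfin hN
  rw [dscHeckeAlong, dif_pos h]

theorem dscHeckeAlong_of_not (h : ¬ DscHeckeInputsAlong L M P p) : dscHeckeAlong L M P p = 0 := by
  rw [dscHeckeAlong, dif_neg h]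

end Total

section Operators

/-- the Hecke operator `T_p` on `J₁(M)(ℚ̄)` (level `(M, 1)`), as a `ℤ`-linear endomorphism. -/
def dscHeckeBar (M : ℕ) (p : Nat.Primes) : Module.End ℤ (DscJ M) :=
  haveI : NeZero (p : ℕ) := ⟨p.2.ne_zero⟩
  (dscHeckeAlong (AlgebraicClosure ℚ) M 1 p).toIntLinearMap

theorem dscHeckeBar_apply (M : ℕ) (p : Nat.Primes) (x : DscJ M) :
    dscHeckeBar M p x =
      (haveI : NeZero (p : ℕ) := ⟨p.2.ne_zero⟩; dscHeckeAlong (AlgebraicClosure ℚ) M 1 p x) :=
  rfl

/-- the transposed Hecke operator `T_p^*` on `J₁(M)(ℚ̄)`. -/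
def dscHeckeBarTr (M : ℕ) (p : Nat.Primes) : Module.End ℤ (DscJ M) :=
  haveI : NeZero (p : ℕ) := ⟨p.2.ne_zero⟩
  (dscHeckeAlongTr (AlgebraicClosure ℚ) M 1 p).toIntLinearMap

end Operators

end Fermat.Agent.DS
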