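import Mathlib
import Fermat.Agent.DS.C.Hecke

/-!
# Program DS, package (C), row C0 : the diamond operators of `X₁(M)` (DEFINITIONS)

`⟨d⟩`, `d ∈ (ℤ/M)ˣ`, is the automorphism of the function field of level `(M, P)` which fixes the
`j(q^e)` and maps `R_{a,b,c}(q^e) ↦ R_{da,db,dc}(q^e)`.  It is determined by these conditions
(`DscIsDiamond`); its EXISTENCE is a theorem (row C1c: it is `f ↦ f ∘ γ_d`, `γ_d ∈ Γ₀(M)`), so the
definition below is total via a choice (`= 1` if no such automorphism exists).

* `DscIsDiamond L M P d Θ`, `dscDiamondAut L M P d : F ≃ₐ[L] F`, `F = dscField M P ⊗ L`;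
* `dscDiamondBar M d : Module.End ℤ (DscJ M)` : the action on `J₁(M)(ℚ̄)` (through the Prelude's
  `SemilinearAut.ofAlgAut` and its action on `Pic⁰`).
-/

set_option autoImplicit false
set_option linter.unusedSectionVars false

noncomputable section

namespace Fermat.Agent.DS

open ModularCurve IntermediateField HahnSeries AlgebraicCurve

variable (L : Type*) [Field L] [Algebra ℚ L] (M P : ℕ)

/-- `Θ` is the diamond automorphism `⟨d⟩` of the function field of level `(M, P)` over `L`. -/
def DscIsDiamond (d : (ZMod M)ˣ)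
    (Θ : laurentBaseChange L (dscField M P) ≃ₐ[L] laurentBaseChange L (dscField M P)) : Prop :=
  (∀ (x : laurentBaseChange L (dscField M P)) (e : ℕ) (_ : NeZero e), e ∣ M * P →
    (x : LaurentSeries L) = qExpand L e (jqModC L) → (Θ x : LaurentSeries L) = x) ∧
  ∀ (x : laurentBaseChange L (dscField M P)) (e : ℕ) (_ : NeZero e) (a b c : ZMod M), e ∣ P →
    DscAdm M a b c → (x : LaurentSeries L) = qExpand L e (dscR L M a b c) →
      (Θ x : LaurentSeries L) = qExpand L e (dscR L M ((d : ZMod M) * a) (d * b) (d * c))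

open Classical in
/-- the diamond automorphism `⟨d⟩` of the function field of level `(M, P)` over `L`. -/
def dscDiamondAut (d : (ZMod M)ˣ) :
    laurentBaseChange L (dscField M P) ≃ₐ[L] laurentBaseChange L (dscField M P) :=
  if h : ∃ Θ, DscIsDiamond L M P d Θ then h.choose else AlgEquiv.refl

variable {L M P} in
theorem dscDiamondAut_spec {d : (ZMod M)ˣ} (h : ∃ Θ, DscIsDiamond L M P d Θ) :
    DscIsDiamond L M P d (dscDiamondAut L M P d) := by
  rw [dscDiamondAut, dif_pos h]
  exact h.choose_spec

/-- the diamond operator `⟨d⟩` on `Pic⁰` of the curve of level `(M, P)` over `L`. -/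
def dscDiamondPic (d : (ZMod M)ˣ) :
    Pic0 L (laurentBaseChange L (dscField M P)) →+ Pic0 L (laurentBaseChange L (dscField M P)) :=
  DistribSMul.toAddMonoidHom _ (SemilinearAut.ofAlgAut (dscDiamondAut L M P d))

theorem dscDiamondPic_apply (d : (ZMod M)ˣ) (x : Pic0 L (laurentBaseChange L (dscField M P))) :
    dscDiamondPic L M P d x = SemilinearAut.ofAlgAut (dscDiamondAut L M P d) • x := rfl

/-- the diamond operator `⟨d⟩` on `J₁(M)(ℚ̄)`. -/
def dscDiamondBar (M : ℕ) (d : (ZMod M)ˣ) : Module.End ℤ (DscJ M) :=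
  (dscDiamondPic (AlgebraicClosure ℚ) M 1 d).toIntLinearMap

theorem dscDiamondBar_apply (M : ℕ) (d : (ZMod M)ˣ) (x : DscJ M) :
    dscDiamondBar M d x =
      SemilinearAut.ofAlgAut (dscDiamondAut (AlgebraicClosure ℚ) M 1 d) • x := rfl

end Fermat.Agent.DS
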