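import Mathlib
import Fermat.Agent.DS.C.Defs

/-!
# Program DS, package (C), row C0 : `j(q)` in the function fields of level `(M, P)`

CANONICAL shared names (all rows import THIS file; do not redefine):
* `dsc_jq_mem K M P : jqModC K ∈ dscFieldC K M P` (no `NeZero` needed; for `K = ℚ` this is
  `jq ∈ dscField M P` by `rfl`);
* `dscJBar L M P : laurentBaseChange L (dscField M P)` = `⟨coeffEmb L jq, _⟩`, `coe_dscJBar`.
-/

set_option autoImplicit false

noncomputable section

namespace Fermat.Agent.DS

open ModularCurve IntermediateField HahnSeries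

/-- `j(q)` lies in the function field of level `(M, P)`. -/
theorem dsc_jq_mem (K : Type*) [Field K] (M P : ℕ) : jqModC K ∈ dscFieldC K M P := by
  have h : qExpand K 1 (jqModC K) ∈ dscFieldC K M P :=
    subset_adjoin K _ (Or.inl ⟨1, inferInstance, one_dvd _, rfl⟩)
  rwa [qExpand_one_apply] at h

/-- `j(q) ∈ dscField M P`. -/
theorem dsc_jq_mem_rat (M P : ℕ) : jq ∈ dscField M P := dsc_jq_mem ℚ M P

/-- `j(q)` as an element of the function field of level `(M, P)` over `L`. -/
def dscJBar (L : Type*) [Field L] [Algebra ℚ L] (M P : ℕ) : laurentBaseChange L (dscField M P) :=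
  ⟨coeffEmb L jq, coeffEmb_mem_laurentBaseChange L (dsc_jq_mem ℚ M P)⟩

@[simp] theorem coe_dscJBar (L : Type*) [Field L] [Algebra ℚ L] (M P : ℕ) :
    ((dscJBar L M P : laurentBaseChange L (dscField M P)) : LaurentSeries L) = coeffEmb L jq :=
  rfl

end Fermat.Agent.DS
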