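import Mathlib
import Fermat.Agent.DS.C.Diamond
import Fermat.Agent.DS.C.JBar
import Fermat.Agent.G.Open
import Fermat.Agent.G.Asm.HeckeGalois

/-!
# Program DS, package (C), row C0 : Galois and the operators of `J₁(M)(ℚ̄)`

* `dscJBar L M P` (file `JBar.lean`) : `j(q)` in the function field of level `(M, P)` over `L`;
* (HG) `dsc_hecke_galois` : the Galois action on `DscJ M` commutes with `dscHeckeBar M p`
  (and with the transposed operator) — unconditional;
* (HG-D) `dsc_diamond_galois` : the Galois action commutes with `dscDiamondBar M d` — from the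
  uniqueness of the diamond automorphism (`dsc_isDiamond_unique`);
* (OS) `dsc_exists_fixing_finset_galois` : finitely many points of `DscJ M` are fixed by
  `Gal(ℚ̄/E)`, `E/ℚ` finite Galois — from `IsSepGen ℚ̄ (dscJBar ℚ̄ M 1)` (row C1c/C2).
-/

set_option autoImplicit false
set_option linter.unusedSectionVars false

noncomputable section

namespace Fermat.Agent.DS

open ModularCurve IntermediateField HahnSeries AlgebraicCurve Fermat.Agent.G Fermat.Agent.S24

local notation "Qb" => AlgebraicClosure ℚ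

/-! ### (HG) Galois commutes with the Hecke correspondences -/

section HG

variable (M P p : ℕ) [NeZero p] (σ : Qb ≃ₐ[ℚ] Qb)

theorem dsc_alpha_intertwines :
    SemilinearAut.IntertwinesAlong (dscAlphaBar Qb M P p).toRingHom
      (arithmeticGalois (dscField M P) σ) (arithmeticGalois (dscField M (P * p)) σ) := by
  intro x
  apply Subtype.ext
  rw [coe_arithmeticGalois_smul]
  show coeffMap (σ : Qb →+* Qb)
      ((dscAlphaBar Qb M P p x : laurentBaseChange Qb (dscField M (P * p))) : LaurentSeries Qb)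
    = ((dscAlphaBar Qb M P p (arithmeticGalois (dscField M P) σ • x) :
        laurentBaseChange Qb (dscField M (P * p))) : LaurentSeries Qb)
  rw [coe_dscAlphaBar, coe_dscAlphaBar, coe_arithmeticGalois_smul]

theorem dsc_beta_intertwines :
    SemilinearAut.IntertwinesAlong (dscBetaBar Qb M P p).toRingHom
      (arithmeticGalois (dscField M P) σ) (arithmeticGalois (dscField M (P * p)) σ) := by
  intro x
  apply Subtype.ext
  rw [coe_arithmeticGalois_smul]
  show coeffMap (σ : Qb →+* Qb)
      ((dscBetaBar Qb M P p x : laurentBaseChange Qb (dscField M (P * p))) : LaurentSeries Qb)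
    = ((dscBetaBar Qb M P p (arithmeticGalois (dscField M P) σ • x) :
        laurentBaseChange Qb (dscField M (P * p))) : LaurentSeries Qb)
  rw [coe_dscBetaBar, coe_dscBetaBar, coe_arithmeticGalois_smul, dsc_coeffMap_qExpand]

/-- the Galois action commutes with the Hecke correspondence of level `(M, P)` at `p`. -/
theorem dsc_heckeAlong_galois (x : Pic0 Qb (laurentBaseChange Qb (dscField M P))) :
    σ • dscHeckeAlong Qb M P p x = dscHeckeAlong Qb M P p (σ • x) := by
  by_cases h : DscHeckeInputsAlong Qb M P p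
  · obtain ⟨hα, hβ, hP, hfin, hFI, hN⟩ := h
    rw [dscHeckeAlong_eq hα hβ hFI hfin hN, galois_smul_pic0_def, galois_smul_pic0_def]
    exact (gasmhg_pic0_correspondence_smul _ _ hβ hα hFI hfin hN
      (dsc_beta_intertwines M P p σ) (dsc_alpha_intertwines M P p σ) x).symm
  · rw [dscHeckeAlong_of_not h, AddMonoidHom.zero_apply, AddMonoidHom.zero_apply, smul_zero]

end HG

/-- (HG) the Galois action on `J₁(M)(ℚ̄)` commutes with `T_p`. -/
theorem dsc_hecke_galois (M : ℕ) (p : Nat.Primes) (σ : Qb ≃ₐ[ℚ] Qb) (x : DscJ M) :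
    σ • dscHeckeBar M p x = dscHeckeBar M p (σ • x) := by
  have : NeZero (p : ℕ) := ⟨p.2.ne_zero⟩
  rw [dscHeckeBar_apply, dscHeckeBar_apply]
  exact dsc_heckeAlong_galois M 1 p σ x

/-! ### generation of the function field over `L` by the images of the rational generators -/

section Generation

variable {L : Type*} [Field L] [Algebra ℚ L] {M P : ℕ}

/-- an intermediate field of `L((q))` containing the images of the generators `dscGen ℚ M P`
contains the function field of level `(M, P)` over `L`. -/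
theorem dsc_laurentBaseChange_le_of_gen (E : IntermediateField L (LaurentSeries L))
    (h : ∀ y ∈ dscGen ℚ M P, coeffEmb L y ∈ E) : laurentBaseChange L (dscField M P) ≤ E := by
  rw [laurentBaseChange, IntermediateField.adjoin_le_iff]
  rintro _ ⟨y, hy, rfl⟩
  have hy' : y ∈ (dscField M P).toSubfield := hy
  rw [dscField, dscFieldC, IntermediateField.adjoin_toSubfield] at hy'
  have hle : Subfield.closure (Set.range (algebraMap ℚ (LaurentSeries ℚ)) ∪ dscGen ℚ M P) ≤
      E.toSubfield.comap (coeffEmb L) := by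
    rw [Subfield.closure_le]
    rintro z (⟨r, rfl⟩ | hz)
    · show coeffEmb L (algebraMap ℚ (LaurentSeries ℚ) r) ∈ E
      have : coeffEmb L (algebraMap ℚ (LaurentSeries ℚ) r) =
          algebraMap L (LaurentSeries L) (algebraMap ℚ L r) := by
        rw [algebraMap_laurentSeries_eq_single, algebraMap_laurentSeries_eq_single, coeffEmb,
          coeffMap_single]
      rw [this]
      exact E.algebraMap_mem _
    · exact h z hz
  exact hle hy'

/-- two `L`-algebra endomorphisms of the function field of level `(M, P)` over `L` which agree on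
the images of the rational generators are equal. -/
theorem dsc_algHom_ext {B : Type*} [Field B] [Algebra L B]
    (Θ₁ Θ₂ : laurentBaseChange L (dscField M P) →ₐ[L] B)
    (h : ∀ x : laurentBaseChange L (dscField M P),
      (∃ y ∈ dscGen ℚ M P, (x : LaurentSeries L) = coeffEmb L y) → Θ₁ x = Θ₂ x) : Θ₁ = Θ₂ := by
  classical
  let F := laurentBaseChange L (dscField M P)
  let E₀ : IntermediateField L F :=
    (AlgHom.equalizer Θ₁ Θ₂).toIntermediateField (fun x hx => by
      rw [AlgHom.mem_equalizer] at hx ⊢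
      rw [map_inv₀, map_inv₀, hx])
  have hE₀ : ∀ x : F, x ∈ E₀ ↔ Θ₁ x = Θ₂ x := fun x => AlgHom.mem_equalizer Θ₁ Θ₂ x
  have hle : laurentBaseChange L (dscField M P) ≤ E₀.map F.val := by
    apply dsc_laurentBaseChange_le_of_gen
    intro y hy
    have hmem : coeffEmb L y ∈ laurentBaseChange L (dscField M P) :=
      coeffEmb_mem_laurentBaseChange L (subset_adjoin ℚ _ hy)
    refine ⟨⟨coeffEmb L y, hmem⟩, ?_, rfl⟩
    exact (hE₀ _).2 (h _ ⟨y, hy, rfl⟩)
  refine AlgHom.ext fun x => ?_
  obtain ⟨e, he, hex⟩ := hle x.2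
  have : e = x := Subtype.ext hex
  rw [← this]
  exact (hE₀ e).1 he

end Generation

/-! ### (HG-D) Galois commutes with the diamond operators -/

section DiamondGalois

variable {L : Type*} [Field L] [Algebra ℚ L] {M P : ℕ}

theorem dsc_coeffEmb_jq (L : Type*) [Field L] [Algebra ℚ L] (e : ℕ) [NeZero e] :
    coeffEmb L (qExpand ℚ e (jqModC ℚ)) = qExpand L e (jqModC L) := by
  rw [coeffEmb, dsc_coeffMap_qExpand, coeffMap_jqModC]

theorem dsc_coeffMap_dscXR {R S : Type*} [CommRing R] [CommRing S] (f : R →+* S) (M : ℕ)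
    (a : ZMod M) : coeffMap f (dscXR R M a) = dscXR S M a := by
  rw [dscXR, dscXR, coeffMap_ofPowerSeries]
  congr 1
  ext n
  simp only [PowerSeries.coeff_map, eq_intCast, map_intCast]

theorem dsc_coeffMap_dscR {K K' : Type*} [Field K] [Field K'] (f : K →+* K') (M : ℕ)
    (a b c : ZMod M) : coeffMap f (dscR K M a b c) = dscR K' M a b c := by
  rw [dscR, dscR, map_div₀, map_sub, map_sub, dsc_coeffMap_dscXR, dsc_coeffMap_dscXR,
    dsc_coeffMap_dscXR]

theorem dsc_coeffEmb_dscR (L : Type*) [Field L] [Algebra ℚ L] (M : ℕ) (e : ℕ) [NeZero e]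
    (a b c : ZMod M) :
    coeffEmb L (qExpand ℚ e (dscR ℚ M a b c)) = qExpand L e (dscR L M a b c) := by
  rw [coeffEmb, dsc_coeffMap_qExpand, dsc_coeffMap_dscR]

/-- the diamond automorphism is unique. -/
theorem dsc_isDiamond_unique {d : (ZMod M)ˣ}
    {Θ₁ Θ₂ : laurentBaseChange L (dscField M P) ≃ₐ[L] laurentBaseChange L (dscField M P)}
    (h₁ : DscIsDiamond L M P d Θ₁) (h₂ : DscIsDiamond L M P d Θ₂) : Θ₁ = Θ₂ := by
  have key : (Θ₁ : laurentBaseChange L (dscField M P) →ₐ[L] laurentBaseChange L (dscField M P)) =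
      (Θ₂ : laurentBaseChange L (dscField M P) →ₐ[L] laurentBaseChange L (dscField M P)) := by
    apply dsc_algHom_ext
    rintro x ⟨y, hy, hxy⟩
    apply Subtype.ext
    rcases hy with ⟨e, he0, he, rfl⟩ | ⟨e, he0, a, b, c, he, hadm, rfl⟩
    · rw [dsc_coeffEmb_jq] at hxy
      show (Θ₁ x : LaurentSeries L) = Θ₂ x
      rw [h₁.1 x e he0 he hxy, h₂.1 x e he0 he hxy]
    · rw [dsc_coeffEmb_dscR] at hxy
      show (Θ₁ x : LaurentSeries L) = Θ₂ x
      rw [h₁.2 x e he0 a b c he hadm hxy, h₂.2 x e he0 a b c he hadm hxy]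
  exact AlgEquiv.ext fun x => AlgHom.congr_fun key x

/-- conjugating a diamond automorphism by the coefficientwise Galois action gives a diamond
automorphism (the generators have rational coefficients). -/
def dscDiamondConj (F₀ : IntermediateField ℚ (LaurentSeries ℚ)) (σ : L ≃ₐ[ℚ] L)
    (Θ : laurentBaseChange L F₀ ≃ₐ[L] laurentBaseChange L F₀) :
    laurentBaseChange L F₀ ≃ₐ[L] laurentBaseChange L F₀ :=
  { ((arithmeticRingAut F₀ σ).symm.trans (Θ : laurentBaseChange L F₀ ≃+* laurentBaseChange L F₀)).trans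
      (arithmeticRingAut F₀ σ) with
    commutes' := fun a => by
      show arithmeticRingAut F₀ σ (Θ ((arithmeticRingAut F₀ σ).symm
        (algebraMap L (laurentBaseChange L F₀) a))) = algebraMap L (laurentBaseChange L F₀) a
      have h1 : (arithmeticRingAut F₀ σ).symm (algebraMap L (laurentBaseChange L F₀) a) =
          algebraMap L (laurentBaseChange L F₀) (σ.symm a) := by
        rw [RingEquiv.symm_apply_eq, arithmeticRingAut_algebraMap, AlgEquiv.apply_symm_apply]
      rw [h1, AlgEquiv.commutes, arithmeticRingAut_algebraMap, AlgEquiv.apply_symm_apply] }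

theorem dscDiamondConj_apply (F₀ : IntermediateField ℚ (LaurentSeries ℚ)) (σ : L ≃ₐ[ℚ] L)
    (Θ : laurentBaseChange L F₀ ≃ₐ[L] laurentBaseChange L F₀) (x : laurentBaseChange L F₀) :
    dscDiamondConj F₀ σ Θ x =
      arithmeticRingAut F₀ σ (Θ ((arithmeticRingAut F₀ σ).symm x)) := rfl

theorem dsc_coe_arithmeticRingAut_symm (F₀ : IntermediateField ℚ (LaurentSeries ℚ))
    (σ : L ≃ₐ[ℚ] L) (x : laurentBaseChange L F₀) :
    (((arithmeticRingAut F₀ σ).symm x : laurentBaseChange L F₀) : LaurentSeries L) =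
      coeffMap (σ.symm : L →+* L) (x : LaurentSeries L) := rfl

theorem dsc_isDiamond_conj {d : (ZMod M)ˣ} (σ : L ≃ₐ[ℚ] L)
    {Θ : laurentBaseChange L (dscField M P) ≃ₐ[L] laurentBaseChange L (dscField M P)}
    (h : DscIsDiamond L M P d Θ) : DscIsDiamond L M P d (dscDiamondConj (dscField M P) σ Θ) := by
  constructor
  · intro x e he0 he hx
    rw [dscDiamondConj_apply, coe_arithmeticRingAut_apply]
    have h1 : (((arithmeticRingAut (dscField M P) σ).symm x : laurentBaseChange L (dscField M P)) :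
        LaurentSeries L) = qExpand L e (jqModC L) := by
      rw [dsc_coe_arithmeticRingAut_symm, hx, dsc_coeffMap_qExpand, coeffMap_jqModC]
    rw [h.1 _ e he0 he h1, h1, hx, dsc_coeffMap_qExpand, coeffMap_jqModC]
  · intro x e he0 a b c he hadm hx
    rw [dscDiamondConj_apply, coe_arithmeticRingAut_apply]
    have h1 : (((arithmeticRingAut (dscField M P) σ).symm x : laurentBaseChange L (dscField M P)) :
        LaurentSeries L) = qExpand L e (dscR L M a b c) := by
      rw [dsc_coe_arithmeticRingAut_symm, hx, dsc_coeffMap_qExpand, dsc_coeffMap_dscR]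
    rw [h.2 _ e he0 a b c he hadm h1, dsc_coeffMap_qExpand, dsc_coeffMap_dscR]

/-- the coefficientwise Galois action commutes with the diamond automorphisms. -/
theorem dsc_diamondAut_galois (d : (ZMod M)ˣ) (σ : L ≃ₐ[ℚ] L)
    (x : laurentBaseChange L (dscField M P)) :
    arithmeticRingAut (dscField M P) σ (dscDiamondAut L M P d x) =
      dscDiamondAut L M P d (arithmeticRingAut (dscField M P) σ x) := by
  by_cases h : ∃ Θ, DscIsDiamond L M P d Θ
  · have hspec := dscDiamondAut_spec h
    have := dsc_isDiamond_unique (dsc_isDiamond_conj σ hspec) hspec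
    have h2 := AlgEquiv.congr_fun this (arithmeticRingAut (dscField M P) σ x)
    rw [dscDiamondConj_apply, RingEquiv.symm_apply_apply] at h2
    exact h2
  · rw [dscDiamondAut, dif_neg h]
    rfl

end DiamondGalois

/-- (HG-D) the Galois action on `Pic⁰` of level `(M, P)` commutes with the diamond operators. -/
theorem dsc_diamondPic_galois (M P : ℕ) (d : (ZMod M)ˣ) (σ : Qb ≃ₐ[ℚ] Qb)
    (x : Pic0 Qb (laurentBaseChange Qb (dscField M P))) :
    σ • dscDiamondPic Qb M P d x = dscDiamondPic Qb M P d (σ • x) := by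
  rw [dscDiamondPic_apply, dscDiamondPic_apply, galois_smul_pic0_def, galois_smul_pic0_def,
    ← mul_smul, ← mul_smul]
  congr 1
  apply Subtype.ext
  apply Prod.ext
  · apply RingEquiv.ext
    intro y
    exact dsc_diamondAut_galois d σ y
  · show σ.toRingEquiv * 1 = 1 * σ.toRingEquiv
    rw [mul_one, one_mul]

/-- (HG-D) the Galois action on `J₁(M)(ℚ̄)` commutes with `⟨d⟩`. -/
theorem dsc_diamond_galois (M : ℕ) (d : (ZMod M)ˣ) (σ : Qb ≃ₐ[ℚ] Qb) (x : DscJ M) :
    σ • dscDiamondBar M d x = dscDiamondBar M d (σ • x) :=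
  dsc_diamondPic_galois M 1 d σ x

/-! ### (OS) open stabilisers -/

section OpenStab

variable (M P : ℕ)

theorem dsc_smul_jBar (σ : Qb ≃ₐ[ℚ] Qb) :
    arithmeticGalois (dscField M P) σ • dscJBar Qb M P = dscJBar Qb M P := by
  apply Subtype.ext
  rw [coe_arithmeticGalois_smul, coe_dscJBar]
  exact coeffMap_coeffEmb σ _

variable (hsep : IsSepGen Qb (dscJBar Qb M P))
include hsep

/-- every place of the function field of level `(M, P)` over `ℚ̄` is fixed by `Gal(ℚ̄/E)` for some
number field `E`. -/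
theorem dsc_exists_fixing_place (v : Place Qb (laurentBaseChange Qb (dscField M P))) :
    ∃ E : IntermediateField ℚ Qb, FiniteDimensional ℚ E ∧
      ∀ σ : Qb ≃ₐ[ℚ] Qb, σ ∈ E.fixingSubgroup →
        arithmeticGalois (dscField M P) σ • v = v := by
  have : Algebra.IsAlgebraic ℚ Qb := AlgebraicClosure.isAlgebraic ℚ
  obtain ⟨s, hs⟩ := gopq_exists_finset_fixing hsep v
  obtain ⟨E, hE, hfix⟩ := gopq_exists_fixing_finset (L := Qb) (dscField M P) s
  exact ⟨E, hE, fun σ hσ => hs _ (dsc_smul_jBar M P σ) (hfix σ hσ)⟩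

theorem dsc_exists_fixing_divisor (D : Divisor Qb (laurentBaseChange Qb (dscField M P))) :
    ∃ E : IntermediateField ℚ Qb, FiniteDimensional ℚ E ∧
      ∀ σ : Qb ≃ₐ[ℚ] Qb, σ ∈ E.fixingSubgroup →
        arithmeticGalois (dscField M P) σ • D = D := by
  classical
  induction D using Finsupp.induction with
  | zero => exact ⟨⊥, inferInstance, fun σ _ => smul_zero _⟩
  | single_add v n D _ _ ih =>
      obtain ⟨E₁, h₁, hE₁⟩ := ih
      obtain ⟨E₂, h₂, hE₂⟩ := dsc_exists_fixing_place M P hsep v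
      refine ⟨E₁ ⊔ E₂, inferInstance, fun σ hσ => ?_⟩
      rw [smul_add, SemilinearAut.smul_single,
        hE₂ σ (gopq_fixingSubgroup_le_of_le le_sup_right hσ),
        hE₁ σ (gopq_fixingSubgroup_le_of_le le_sup_left hσ)]

theorem dsc_exists_fixing (x : Pic0 Qb (laurentBaseChange Qb (dscField M P))) :
    ∃ E : IntermediateField ℚ Qb, FiniteDimensional ℚ E ∧
      ∀ σ : Qb ≃ₐ[ℚ] Qb, σ ∈ E.fixingSubgroup → σ • x = x := by
  obtain ⟨D, rfl⟩ := Pic0.mk_surjective x
  obtain ⟨E, hE, hfix⟩ := dsc_exists_fixing_divisor M P hsep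
    (D : Divisor Qb (laurentBaseChange Qb (dscField M P)))
  refine ⟨E, hE, fun σ hσ => ?_⟩
  rw [galois_smul_pic0_def, SemilinearAut.pic0_smul_mk]
  exact congrArg Pic0.mk (Subtype.ext (by rw [SemilinearAut.coe_degZeroSMulHom, hfix σ hσ]))

theorem dsc_exists_fixing_finset (s : Finset (Pic0 Qb (laurentBaseChange Qb (dscField M P)))) :
    ∃ E : IntermediateField ℚ Qb, FiniteDimensional ℚ E ∧
      ∀ σ : Qb ≃ₐ[ℚ] Qb, σ ∈ E.fixingSubgroup → ∀ x ∈ s, σ • x = x := by
  classical
  induction s using Finset.induction_on with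
  | empty => exact ⟨⊥, inferInstance, fun σ _ b hb => absurd hb (Finset.notMem_empty b)⟩
  | insert a s _ ih =>
      obtain ⟨E₁, h₁, hE₁⟩ := ih
      obtain ⟨E₂, h₂, hE₂⟩ := dsc_exists_fixing M P hsep a
      refine ⟨E₁ ⊔ E₂, inferInstance, fun σ hσ b hb => ?_⟩
      rcases Finset.mem_insert.1 hb with rfl | hb
      · exact hE₂ σ (gopq_fixingSubgroup_le_of_le le_sup_right hσ)
      · exact hE₁ σ (gopq_fixingSubgroup_le_of_le le_sup_left hσ) b hb

/-- (OS) finitely many points of `Pic⁰` of level `(M, P)` are fixed by `Gal(ℚ̄/E)`, `E/ℚ` finite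
Galois. -/
theorem dsc_exists_fixing_finset_galois
    (s : Finset (Pic0 Qb (laurentBaseChange Qb (dscField M P)))) :
    ∃ E : IntermediateField ℚ Qb, FiniteDimensional ℚ E ∧ IsGalois ℚ E ∧
      ∀ σ : Qb ≃ₐ[ℚ] Qb, σ ∈ E.fixingSubgroup → ∀ x ∈ s, σ • x = x := by
  obtain ⟨E, hE, hfix⟩ := dsc_exists_fixing_finset M P hsep s
  obtain ⟨E', h1, h2, h3⟩ := gopq_exists_galois_ge E
  exact ⟨E', h2, h3, fun σ hσ => hfix σ (gopq_fixingSubgroup_le_of_le h1 hσ)⟩

/-- the stabiliser of a point is open for the Krull topology. -/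
theorem dsc_isOpen_stabilizer (x : Pic0 Qb (laurentBaseChange Qb (dscField M P))) :
    IsOpen ((MulAction.stabilizer (Qb ≃ₐ[ℚ] Qb) x : Subgroup (Qb ≃ₐ[ℚ] Qb)) :
      Set (Qb ≃ₐ[ℚ] Qb)) := by
  obtain ⟨E, hE, hfix⟩ := dsc_exists_fixing M P hsep x
  exact Subgroup.isOpen_mono (H₁ := E.fixingSubgroup) (fun σ hσ => hfix σ hσ)
    (IntermediateField.fixingSubgroup_isOpen E)

end OpenStab

end Fermat.Agent.DS
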