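import Mathlib
import Fermat.Agent.DS.C.Galois

/-!
# Program DS, package (C), row C0 : the diamond operators form a group action

* `dsc_isDiamond_one`, `dsc_isDiamond_mul`, `dsc_isDiamond_symm` : the characterising property
  `DscIsDiamond` is compatible with `1`, products and inverses;
* `dscDiamondAut_one`, `dscDiamondAut_mul`, `dscDiamondAut_inv`;
* `dscDiamondBar_one`, `dscDiamondBar_mul`, `dscDiamondBar_inv_comp` : the same on `J₁(M)(ℚ̄)`.

The statements about products are conditional on the EXISTENCE of the two diamond automorphisms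
(row C1c, Br-7), since `dscDiamondAut` is total via a choice.
-/

set_option autoImplicit false
set_option linter.unusedSectionVars false

noncomputable section

namespace Fermat.Agent.DS

open ModularCurve IntermediateField HahnSeries AlgebraicCurve

variable {L : Type*} [Field L] [Algebra ℚ L] {M P : ℕ}

/-- admissibility is stable under multiplication by a unit. -/
theorem dsc_adm_unit_mul (d : (ZMod M)ˣ) {a b c : ZMod M} (h : DscAdm M a b c) :
    DscAdm M ((d : ZMod M) * a) (d * b) (d * c) := by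
  obtain ⟨h1, h2, h3, h4, h5, h6, h7, h8, h9⟩ := h
  have hu : IsUnit (d : ZMod M) := d.isUnit
  refine ⟨?_, ?_, ?_, ?_, ?_, ?_, ?_, ?_, ?_⟩
  · exact fun h => h1 (by simpa using (hu.mul_right_eq_zero).1 h)
  · exact fun h => h2 (by simpa using (hu.mul_right_eq_zero).1 h)
  · exact fun h => h3 (by simpa using (hu.mul_right_eq_zero).1 h)
  · exact fun h => h4 (hu.mul_left_cancel h)
  · exact fun h => h5 (hu.mul_left_cancel (by rw [h, mul_neg]))
  · exact fun h => h6 (hu.mul_left_cancel h)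
  · exact fun h => h7 (hu.mul_left_cancel (by rw [h, mul_neg]))
  · exact fun h => h8 (hu.mul_left_cancel h)
  · exact fun h => h9 (hu.mul_left_cancel (by rw [h, mul_neg]))

theorem dsc_isDiamond_one :
    DscIsDiamond L M P 1 (AlgEquiv.refl : laurentBaseChange L (dscField M P) ≃ₐ[L] _) := by
  constructor
  · intro x e he0 he hx
    rfl
  · intro x e he0 a b c he hadm hx
    show (x : LaurentSeries L) = _
    rw [hx, Units.val_one, one_mul, one_mul, one_mul]

theorem dsc_isDiamond_mul {d e : (ZMod M)ˣ}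
    {Θ₁ Θ₂ : laurentBaseChange L (dscField M P) ≃ₐ[L] laurentBaseChange L (dscField M P)}
    (h₁ : DscIsDiamond L M P d Θ₁) (h₂ : DscIsDiamond L M P e Θ₂) :
    DscIsDiamond L M P (d * e) (Θ₁ * Θ₂) := by
  constructor
  · intro x n hn0 hn hx
    show (Θ₁ (Θ₂ x) : LaurentSeries L) = x
    have h2 := h₂.1 x n hn0 hn hx
    rw [h₁.1 (Θ₂ x) n hn0 hn (h2.trans hx), h2]
  · intro x n hn0 a b c hn hadm hx
    show (Θ₁ (Θ₂ x) : LaurentSeries L) = _
    have h2 := h₂.2 x n hn0 a b c hn hadm hx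
    rw [h₁.2 (Θ₂ x) n hn0 _ _ _ hn (dsc_adm_unit_mul e hadm) h2, Units.val_mul, mul_assoc,
      mul_assoc, mul_assoc]

/-- the generator `R_{a,b,c}(q^n)` as an element of the function field over `L`. -/
theorem dsc_R_mem_laurentBaseChange (L : Type*) [Field L] [Algebra ℚ L] (M P : ℕ) (n : ℕ)
    [NeZero n] (hn : n ∣ P) {a b c : ZMod M} (hadm : DscAdm M a b c) :
    qExpand L n (dscR L M a b c) ∈ laurentBaseChange L (dscField M P) := by
  rw [← dsc_coeffEmb_dscR]
  exact coeffEmb_mem_laurentBaseChange L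
    (subset_adjoin ℚ _ (Or.inr ⟨n, inferInstance, a, b, c, hn, hadm, rfl⟩))

theorem dsc_isDiamond_symm {d : (ZMod M)ˣ}
    {Θ : laurentBaseChange L (dscField M P) ≃ₐ[L] laurentBaseChange L (dscField M P)}
    (h : DscIsDiamond L M P d Θ) : DscIsDiamond L M P d⁻¹ Θ.symm := by
  constructor
  · intro x n hn0 hn hx
    have h1 := h.1 x n hn0 hn hx
    have : Θ x = x := Subtype.ext h1
    rw [(AlgEquiv.symm_apply_eq Θ).2 this.symm]
  · intro x n hn0 a b c hn hadm hx
    have hadm' := dsc_adm_unit_mul d⁻¹ hadm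
    let y : laurentBaseChange L (dscField M P) :=
      ⟨_, dsc_R_mem_laurentBaseChange L M P n hn hadm'⟩
    have hy := h.2 y n hn0 _ _ _ hn hadm' rfl
    have hdd : ∀ z : ZMod M, (d : ZMod M) * (((d⁻¹ : (ZMod M)ˣ) : ZMod M) * z) = z := fun z => by
      rw [← mul_assoc, ← Units.val_mul, mul_inv_cancel, Units.val_one, one_mul]
    rw [hdd, hdd, hdd, ← hx] at hy
    have : Θ y = x := Subtype.ext hy
    rw [(AlgEquiv.symm_apply_eq Θ).2 this.symm]

variable (L M P)

theorem dscDiamondAut_one : dscDiamondAut L M P 1 = AlgEquiv.refl :=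
  dsc_isDiamond_unique (dscDiamondAut_spec ⟨_, dsc_isDiamond_one⟩) dsc_isDiamond_one

variable {L M P}

theorem dscDiamondAut_eq {d : (ZMod M)ˣ}
    {Θ : laurentBaseChange L (dscField M P) ≃ₐ[L] laurentBaseChange L (dscField M P)}
    (h : DscIsDiamond L M P d Θ) : dscDiamondAut L M P d = Θ :=
  dsc_isDiamond_unique (dscDiamondAut_spec ⟨_, h⟩) h

theorem dscDiamondAut_mul {d e : (ZMod M)ˣ} (hd : ∃ Θ, DscIsDiamond L M P d Θ)
    (he : ∃ Θ, DscIsDiamond L M P e Θ) :
    dscDiamondAut L M P (d * e) = dscDiamondAut L M P d * dscDiamondAut L M P e :=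
  dscDiamondAut_eq (dsc_isDiamond_mul (dscDiamondAut_spec hd) (dscDiamondAut_spec he))

theorem dscDiamondAut_inv {d : (ZMod M)ˣ} (hd : ∃ Θ, DscIsDiamond L M P d Θ) :
    dscDiamondAut L M P d⁻¹ = (dscDiamondAut L M P d).symm :=
  dscDiamondAut_eq (dsc_isDiamond_symm (dscDiamondAut_spec hd))

theorem dsc_exists_isDiamond_mul {d e : (ZMod M)ˣ} (hd : ∃ Θ, DscIsDiamond L M P d Θ)
    (he : ∃ Θ, DscIsDiamond L M P e Θ) : ∃ Θ, DscIsDiamond L M P (d * e) Θ :=
  ⟨_, dsc_isDiamond_mul (dscDiamondAut_spec hd) (dscDiamondAut_spec he)⟩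

theorem dsc_exists_isDiamond_inv {d : (ZMod M)ˣ} (hd : ∃ Θ, DscIsDiamond L M P d Θ) :
    ∃ Θ, DscIsDiamond L M P d⁻¹ Θ :=
  ⟨_, dsc_isDiamond_symm (dscDiamondAut_spec hd)⟩

/-! ### on `Pic⁰` and on `J₁(M)(ℚ̄)` -/

theorem dscDiamondPic_one (L : Type*) [Field L] [Algebra ℚ L] (M P : ℕ)
    (x : Pic0 L (laurentBaseChange L (dscField M P))) : dscDiamondPic L M P 1 x = x := by
  rw [dscDiamondPic_apply, dscDiamondAut_one]
  have : (AlgEquiv.refl : laurentBaseChange L (dscField M P) ≃ₐ[L] _) = 1 := rfl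
  rw [this, map_one, one_smul]

theorem dscDiamondPic_mul {d e : (ZMod M)ˣ} (hd : ∃ Θ, DscIsDiamond L M P d Θ)
    (he : ∃ Θ, DscIsDiamond L M P e Θ) (x : Pic0 L (laurentBaseChange L (dscField M P))) :
    dscDiamondPic L M P (d * e) x = dscDiamondPic L M P d (dscDiamondPic L M P e x) := by
  rw [dscDiamondPic_apply, dscDiamondPic_apply, dscDiamondPic_apply, dscDiamondAut_mul hd he,
    map_mul, mul_smul]

local notation "Qb" => AlgebraicClosure ℚ

/-- `⟨1⟩ = id` on `J₁(M)(ℚ̄)`. -/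
theorem dscDiamondBar_one (M : ℕ) : dscDiamondBar M 1 = LinearMap.id :=
  LinearMap.ext fun x => dscDiamondPic_one Qb M 1 x

/-- `⟨d e⟩ = ⟨d⟩ ∘ ⟨e⟩` on `J₁(M)(ℚ̄)`. -/
theorem dscDiamondBar_mul {M : ℕ} {d e : (ZMod M)ˣ} (hd : ∃ Θ, DscIsDiamond Qb M 1 d Θ)
    (he : ∃ Θ, DscIsDiamond Qb M 1 e Θ) :
    dscDiamondBar M (d * e) = dscDiamondBar M d ∘ₗ dscDiamondBar M e :=
  LinearMap.ext fun x => dscDiamondPic_mul hd he x

theorem dscDiamondBar_mul_apply {M : ℕ} {d e : (ZMod M)ˣ} (hd : ∃ Θ, DscIsDiamond Qb M 1 d Θ)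
    (he : ∃ Θ, DscIsDiamond Qb M 1 e Θ) (x : DscJ M) :
    dscDiamondBar M (d * e) x = dscDiamondBar M d (dscDiamondBar M e x) :=
  dscDiamondPic_mul hd he x

/-- `⟨d⁻¹⟩ ∘ ⟨d⟩ = id` on `J₁(M)(ℚ̄)`. -/
theorem dscDiamondBar_inv_apply {M : ℕ} {d : (ZMod M)ˣ} (hd : ∃ Θ, DscIsDiamond Qb M 1 d Θ)
    (x : DscJ M) : dscDiamondBar M d⁻¹ (dscDiamondBar M d x) = x := by
  rw [← dscDiamondBar_mul_apply (dsc_exists_isDiamond_inv hd) hd, inv_mul_cancel,
    dscDiamondBar_one, LinearMap.id_apply]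

theorem dscDiamondBar_apply_inv {M : ℕ} {d : (ZMod M)ˣ} (hd : ∃ Θ, DscIsDiamond Qb M 1 d Θ)
    (x : DscJ M) : dscDiamondBar M d (dscDiamondBar M d⁻¹ x) = x := by
  rw [← dscDiamondBar_mul_apply hd (dsc_exists_isDiamond_inv hd), mul_inv_cancel,
    dscDiamondBar_one, LinearMap.id_apply]

/-- the diamond operators commute. -/
theorem dscDiamondBar_comm {M : ℕ} {d e : (ZMod M)ˣ} (hd : ∃ Θ, DscIsDiamond Qb M 1 d Θ)
    (he : ∃ Θ, DscIsDiamond Qb M 1 e Θ) (x : DscJ M) :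
    dscDiamondBar M d (dscDiamondBar M e x) = dscDiamondBar M e (dscDiamondBar M d x) := by
  rw [← dscDiamondBar_mul_apply hd he, ← dscDiamondBar_mul_apply he hd, mul_comm]

end Fermat.Agent.DS
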