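/-
Program DS (S48, Deligne–Serre), package (C): GOOD INTEGRAL ELEMENTS at level `(M, P)`.

The `Γ₁`-analogue of `S18/A/Defs.lean` (`S18Good`) together with the closure API of `S18/A/Top.lean`
and `G/GN.lean`, for the function fields `dscFieldBar M P` (generic fibre) and
`dscFieldC (ResidueField A) M P` (special fibre) of `X(Γ₁(M) ∩ Γ₀(P))`.

`y ∈ 𝔸((q))` (`𝔸` a valuation subring of `ℚ̄`) is GOOD if its image over `ℚ̄` lies in the function
field over `ℚ̄` and its coefficientwise reduction lies in the function field over the residue
field.  This is the vocabulary on which the core claim (C4), the Gauss normalisation (GN), the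
conjugates (Conj) and the Eichler–Shimura relation on torsion (EsTor) are stated.
-/
import Mathlib
import Fermat.Agent.DS.C.Defs

set_option autoImplicit false
set_option linter.unusedSectionVars false
set_option synthInstance.maxHeartbeats 400000

noncomputable section

namespace Fermat.Agent.DS

open ModularCurve AlgebraicCurve IsLocalRing

variable (M P : ℕ)
variable (A : ValuationSubring (AlgebraicClosure ℚ))

/-- `y ∈ 𝔸((q))` is a *good integral element* of level `(M, P)`: its image over `ℚ̄` lies in
`dscFieldBar M P` and its reduction lies in `dscFieldC (ResidueField A) M P`. -/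
def DscGood (y : LaurentSeries A) : Prop :=
  coeffMap A.subtype y ∈ dscFieldBar M P ∧
    coeffMap (residue A) y ∈ dscFieldC (ResidueField A) M P

variable {M P A}

/-- the generic fibre element of a good integral element -/
def DscGood.gen {y : LaurentSeries A} (hy : DscGood M P A y) : dscFieldBar M P :=
  ⟨coeffMap A.subtype y, hy.1⟩

/-- the special fibre element of a good integral element -/
def DscGood.spec {y : LaurentSeries A} (hy : DscGood M P A y) :
    dscFieldC (ResidueField A) M P :=
  ⟨coeffMap (residue A) y, hy.2⟩

@[simp] theorem DscGood.coe_gen {y : LaurentSeries A} (hy : DscGood M P A y) :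
    (hy.gen : LaurentSeries (AlgebraicClosure ℚ)) = coeffMap A.subtype y := rfl

@[simp] theorem DscGood.coe_spec {y : LaurentSeries A} (hy : DscGood M P A y) :
    (hy.spec : LaurentSeries (ResidueField A)) = coeffMap (residue A) y := rfl

theorem dscg_coeffMap_subtype_injective :
    Function.Injective (coeffMap A.subtype :
      LaurentSeries A → LaurentSeries (AlgebraicClosure ℚ)) := by
  intro x y hxy
  ext k
  have := congrArg (fun s => HahnSeries.coeff s k) hxy
  simpa using this

/-! ### Closure properties -/

theorem DscGood.one : DscGood M P A (1 : LaurentSeries A) :=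
  ⟨by rw [map_one]; exact one_mem _, by rw [map_one]; exact one_mem _⟩

theorem DscGood.zero : DscGood M P A (0 : LaurentSeries A) :=
  ⟨by rw [map_zero]; exact zero_mem _, by rw [map_zero]; exact zero_mem _⟩

theorem DscGood.mul {x y : LaurentSeries A} (hx : DscGood M P A x) (hy : DscGood M P A y) :
    DscGood M P A (x * y) :=
  ⟨by rw [map_mul]; exact mul_mem hx.1 hy.1, by rw [map_mul]; exact mul_mem hx.2 hy.2⟩

theorem DscGood.add {x y : LaurentSeries A} (hx : DscGood M P A x) (hy : DscGood M P A y) :
    DscGood M P A (x + y) :=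
  ⟨by rw [map_add]; exact add_mem hx.1 hy.1, by rw [map_add]; exact add_mem hx.2 hy.2⟩

theorem DscGood.neg {x : LaurentSeries A} (hx : DscGood M P A x) : DscGood M P A (-x) :=
  ⟨by rw [map_neg]; exact neg_mem hx.1, by rw [map_neg]; exact neg_mem hx.2⟩

theorem DscGood.sub {x y : LaurentSeries A} (hx : DscGood M P A x) (hy : DscGood M P A y) :
    DscGood M P A (x - y) :=
  ⟨by rw [map_sub]; exact sub_mem hx.1 hy.1, by rw [map_sub]; exact sub_mem hx.2 hy.2⟩

theorem DscGood.pow {x : LaurentSeries A} (hx : DscGood M P A x) (n : ℕ) :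
    DscGood M P A (x ^ n) :=
  ⟨by rw [map_pow]; exact pow_mem hx.1 n, by rw [map_pow]; exact pow_mem hx.2 n⟩

/-- constants are good -/
theorem DscGood.const (c : A) : DscGood M P A (HahnSeries.C c) := by
  have e1 : coeffMap A.subtype (HahnSeries.C c) =
      algebraMap (AlgebraicClosure ℚ) (LaurentSeries (AlgebraicClosure ℚ))
        (c : AlgebraicClosure ℚ) := by
    rw [algebraMap_laurentSeries_eq_single]
    exact coeffMap_single _ _ _
  have e2 : coeffMap (residue A) (HahnSeries.C c) =
      algebraMap (ResidueField A) (LaurentSeries (ResidueField A)) (residue A c) := by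
    rw [algebraMap_laurentSeries_eq_single]
    exact coeffMap_single _ _ _
  exact ⟨by rw [e1]; exact IntermediateField.algebraMap_mem _ _,
    by rw [e2]; exact IntermediateField.algebraMap_mem _ _⟩

/-- `laurentBaseChange` is monotone (the Prelude's private lemma). -/
theorem dscg_laurentBaseChange_mono (L : Type*) [Field L] [Algebra ℚ L]
    {F₀ F₁ : IntermediateField ℚ (LaurentSeries ℚ)} (h : F₀ ≤ F₁) :
    laurentBaseChange L F₀ ≤ laurentBaseChange L F₁ := by
  rw [laurentBaseChange, IntermediateField.adjoin_le_iff]
  rintro _ ⟨y, hy, rfl⟩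
  exact coeffEmb_mem_laurentBaseChange L (h hy)

/-- monotonicity in the `Γ₀`-level `P` -/
theorem DscGood.mono {P' : ℕ} (h : P ∣ P') {x : LaurentSeries A} (hx : DscGood M P A x) :
    DscGood M P' A x :=
  ⟨dscg_laurentBaseChange_mono (AlgebraicClosure ℚ) (dsc_field_mono ℚ M h) hx.1,
    dsc_field_mono (ResidueField A) M h hx.2⟩

/-! ### `gen` and `spec` are multiplicative -/

@[simp] theorem DscGood.gen_mul {x y : LaurentSeries A} (hx : DscGood M P A x)
    (hy : DscGood M P A y) : (hx.mul hy).gen = hx.gen * hy.gen :=
  Subtype.ext (map_mul _ _ _)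

@[simp] theorem DscGood.spec_mul {x y : LaurentSeries A} (hx : DscGood M P A x)
    (hy : DscGood M P A y) : (hx.mul hy).spec = hx.spec * hy.spec :=
  Subtype.ext (map_mul _ _ _)

@[simp] theorem DscGood.gen_add {x y : LaurentSeries A} (hx : DscGood M P A x)
    (hy : DscGood M P A y) : (hx.add hy).gen = hx.gen + hy.gen :=
  Subtype.ext (map_add _ _ _)

@[simp] theorem DscGood.spec_add {x y : LaurentSeries A} (hx : DscGood M P A x)
    (hy : DscGood M P A y) : (hx.add hy).spec = hx.spec + hy.spec :=
  Subtype.ext (map_add _ _ _)

@[simp] theorem DscGood.gen_pow {x : LaurentSeries A} (hx : DscGood M P A x) (n : ℕ) :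
    (hx.pow n).gen = hx.gen ^ n :=
  Subtype.ext (map_pow _ _ _)

@[simp] theorem DscGood.spec_pow {x : LaurentSeries A} (hx : DscGood M P A x) (n : ℕ) :
    (hx.pow n).spec = hx.spec ^ n :=
  Subtype.ext (map_pow _ _ _)

@[simp] theorem DscGood.gen_one : (DscGood.one (M := M) (P := P) (A := A)).gen = 1 :=
  Subtype.ext (map_one _)

@[simp] theorem DscGood.spec_one : (DscGood.one (M := M) (P := P) (A := A)).spec = 1 :=
  Subtype.ext (map_one _)

theorem DscGood.gen_const (c : A) : (DscGood.const (M := M) (P := P) c).gen =
    algebraMap (AlgebraicClosure ℚ) (dscFieldBar M P) (c : AlgebraicClosure ℚ) := by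
  apply Subtype.ext
  show coeffMap A.subtype (HahnSeries.C c) =
    algebraMap (AlgebraicClosure ℚ) (LaurentSeries (AlgebraicClosure ℚ)) (c : AlgebraicClosure ℚ)
  rw [algebraMap_laurentSeries_eq_single]
  exact coeffMap_single _ _ _

theorem DscGood.spec_const (c : A) : (DscGood.const (M := M) (P := P) c).spec =
    algebraMap (ResidueField A) (dscFieldC (ResidueField A) M P) (residue A c) := by
  apply Subtype.ext
  show coeffMap (residue A) (HahnSeries.C c) =
    algebraMap (ResidueField A) (LaurentSeries (ResidueField A)) (residue A c)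
  rw [algebraMap_laurentSeries_eq_single]
  exact coeffMap_single _ _ _

/-- proof irrelevance for `gen` -/
theorem DscGood.gen_congr {u v : LaurentSeries A} (hu : DscGood M P A u) (hv : DscGood M P A v)
    (h : u = v) : hu.gen = hv.gen := by
  subst h; rfl

/-- proof irrelevance for `spec` -/
theorem DscGood.spec_congr {u v : LaurentSeries A} (hu : DscGood M P A u) (hv : DscGood M P A v)
    (h : u = v) : hu.spec = hv.spec := by
  subst h; rfl

/-- a good integral element with nonzero reduction has nonzero generic fibre. -/
theorem DscGood.gen_ne_zero {x : LaurentSeries A} (hx : DscGood M P A x) (h : hx.spec ≠ 0) :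
    hx.gen ≠ 0 := by
  intro h0
  apply h
  have h1 : coeffMap A.subtype x = 0 := congrArg Subtype.val h0
  have h2 : x = 0 := dscg_coeffMap_subtype_injective (by rw [h1, map_zero])
  apply Subtype.ext
  show coeffMap (residue A) x = 0
  rw [h2, map_zero]

end Fermat.Agent.DS
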