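import Mathlib
import Fermat.Agent.DS.C.Hecke

/-!
# Program DS, package (C), row C5 : the Hecke operator on FUNCTIONS (`Γ₁`-copy of `G/Defs.lean`)

* `dscNormAlpha M P p` : the norm `F_ℚ̄(M, P·p) → F_ℚ̄(M, P)` along the inclusion `α = dscAlphaBar`;
* `dscHeckeFun M P p f = N_α (β f)`, `β f = f(q^p)` : the Hecke operator on functions; on divisors
  `div (dscHeckeFun f) = T_p (div f)` (row C5/FF).
-/

set_option autoImplicit false

noncomputable section

namespace Fermat.Agent.DS

open ModularCurve AlgebraicCurve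

variable (M P p : ℕ) [NeZero p]

/-- The norm `F_ℚ̄(M, P·p) → F_ℚ̄(M, P)` along `α = dscAlphaBar` (the inclusion of subfields of
`ℚ̄((q))`). -/
def dscNormAlpha : dscFieldBar M (P * p) →* dscFieldBar M P :=
  letI := algebraAlong (dscAlphaBar (AlgebraicClosure ℚ) M P p)
  Algebra.norm (dscFieldBar M P)

/-- The Hecke operator on functions: `f ↦ N_α (β f)`, `β f = f(q^p)`. -/
def dscHeckeFun : dscFieldBar M P →* dscFieldBar M P :=
  (dscNormAlpha M P p).comp (dscBetaBar (AlgebraicClosure ℚ) M P p : _ →* _)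

theorem dscHeckeFun_apply (f : dscFieldBar M P) :
    dscHeckeFun M P p f = dscNormAlpha M P p (dscBetaBar (AlgebraicClosure ℚ) M P p f) := rfl

end Fermat.Agent.DS
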