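import Fermat.Agent.DS.C.Defs
import Fermat.Agent.DS.C.U.OrdX

/-!
# Program DS (S48), package (C): the FORMAL INCLUSION `F₁(M; a) ⊆ F₁(aM)`  (helper2)

`dscFieldC K M a ≤ dscFieldC K (a * M) 1` for every field `K` (same variable `q`), from the two
identities in `ℤ[[q]]`

* `X̃^{(M)}_k (q^e) = X̃^{(eM)}_{ek} (q)`                      (`dscin_X_expand`, `dscin_qExpand_XR`),
* `X̃^{(M)}_k (q) = ∑_{u ↦ k} X̃^{(aM)}_u (q)`  (`u ∈ ℤ/aM` over `k`)  (`dscin_X_split`, `dscin_XR_split`),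

and `X'_u - X'_v ∈ (X'_1 - X'_2) · F₁(aM)` for all `u, v ≠ 0` (cross-ratios `R'_{1,u,2}`).
-/

set_option autoImplicit false
set_option linter.unusedSectionVars false

noncomputable section

namespace Fermat.Agent.DS

open ModularCurve

/-! ### the two identities in `ℤ[[q]]` -/

theorem dscX_coeff (M : ℕ) (k : ZMod M) (n : ℕ) :
    PowerSeries.coeff n (dscX M k) = ∑ e ∈ n.divisors,
      ((if ((n / e : ℕ) : ZMod M) = k then (e : ℤ) else 0) +
        (if ((n / e : ℕ) : ZMod M) = -k then (e : ℤ) else 0)) := by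
  rw [dscX, PowerSeries.coeff_mk]

/-- the reduction `ℤ/aM → ℤ/M`. -/
def dscinRed (M a : ℕ) : ZMod (a * M) →+* ZMod M := ZMod.castHom (Dvd.intro_left a rfl) (ZMod M)

/-- the residues `u ∈ ℤ/aM` over `k ∈ ℤ/M`. -/
def dscinFib (M a : ℕ) [NeZero M] [NeZero a] (k : ZMod M) : Finset (ZMod (a * M)) :=
  Finset.univ.filter fun u => dscinRed M a u = k

theorem dscin_mem_fib (M a : ℕ) [NeZero M] [NeZero a] (k : ZMod M) (u : ZMod (a * M)) :
    u ∈ dscinFib M a k ↔ dscinRed M a u = k := by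
  simp [dscinFib]

/-- `X̃^{(M)}_k = ∑_{u ↦ k} X̃^{(aM)}_u`. -/
theorem dscin_X_split (M a : ℕ) [NeZero M] [NeZero a] (k : ZMod M) :
    dscX M k = ∑ u ∈ dscinFib M a k, dscX (a * M) u := by
  ext n
  rw [map_sum, dscX_coeff]
  simp_rw [dscX_coeff]
  rw [Finset.sum_comm]
  apply Finset.sum_congr rfl
  intro d _
  rw [Finset.sum_add_distrib]
  congr 1
  · rw [Finset.sum_ite_eq]
    refine if_congr ?_ rfl rfl
    rw [dscin_mem_fib, map_natCast]
  · have : ∀ u : ZMod (a * M), (((n / d : ℕ) : ZMod (a * M)) = -u) ↔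
        (-((n / d : ℕ) : ZMod (a * M)) = u) := by
      intro u
      constructor
      · intro h; rw [h, neg_neg]
      · intro h; rw [← h, neg_neg]
    simp_rw [this]
    rw [Finset.sum_ite_eq]
    refine if_congr ?_ rfl rfl
    rw [dscin_mem_fib, map_neg, map_natCast]
    constructor
    · intro h; rw [h, neg_neg]
    · intro h; rw [← h, neg_neg]

/-- multiplication by `e` : `ℤ/M → ℤ/eM`. -/
def dscinMul (M e : ℕ) (k : ZMod M) : ZMod (e * M) := ((e * k.val : ℕ) : ZMod (e * M))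

theorem dscin_cast_eq_mul (M e : ℕ) [NeZero M] [NeZero e] (k : ZMod M) (f : ℕ) :
    ((f : ℕ) : ZMod (e * M)) = dscinMul M e k ↔ e ∣ f ∧ ((f / e : ℕ) : ZMod M) = k := by
  have he : e ≠ 0 := NeZero.ne e
  unfold dscinMul
  rw [ZMod.natCast_eq_natCast_iff]
  constructor
  · intro h
    have h1 : f ≡ e * k.val [MOD e] := Nat.ModEq.of_mul_right M h
    have h2 : e ∣ f := by
      rw [← Nat.modEq_zero_iff_dvd]
      exact h1.trans (Nat.modEq_zero_iff_dvd.mpr (Dvd.intro _ rfl))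
    refine ⟨h2, ?_⟩
    obtain ⟨g, rfl⟩ := h2
    rw [Nat.mul_div_cancel_left _ (Nat.pos_of_ne_zero he)]
    have h3 : g ≡ k.val [MOD M] := Nat.ModEq.mul_left_cancel' he h
    rw [← ZMod.natCast_zmod_val k, ZMod.natCast_eq_natCast_iff]
    exact h3
  · rintro ⟨⟨g, rfl⟩, h⟩
    rw [Nat.mul_div_cancel_left _ (Nat.pos_of_ne_zero he)] at h
    apply Nat.ModEq.mul_left'
    rw [← ZMod.natCast_eq_natCast_iff, ZMod.natCast_zmod_val]
    exact h

theorem dscinMul_neg (M e : ℕ) [NeZero M] [NeZero e] (k : ZMod M) :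
    dscinMul M e (-k) = -dscinMul M e k := by
  unfold dscinMul
  rw [eq_neg_iff_add_eq_zero, ← Nat.cast_add, ZMod.natCast_eq_zero_iff, ← Nat.mul_add]
  apply Nat.mul_dvd_mul_left
  rw [← ZMod.natCast_eq_zero_iff, Nat.cast_add, ZMod.natCast_zmod_val, ZMod.natCast_zmod_val,
    neg_add_cancel]

/-- `X̃^{(M)}_k (q^e) = X̃^{(eM)}_{ek} (q)`, coefficientwise. -/
theorem dscin_X_expand (M e : ℕ) [NeZero M] [NeZero e] (k : ZMod M) (n : ℕ) :
    PowerSeries.coeff n (dscX (e * M) (dscinMul M e k)) =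
      if e ∣ n then PowerSeries.coeff (n / e) (dscX M k) else 0 := by
  have he : 0 < e := Nat.pos_of_ne_zero (NeZero.ne e)
  rw [dscX_coeff]
  simp_rw [← dscinMul_neg, dscin_cast_eq_mul]
  split_ifs with hn
  · obtain ⟨m, rfl⟩ := hn
    rw [Nat.mul_div_cancel_left _ he, dscX_coeff]
    rcases Nat.eq_zero_or_pos m with rfl | hm
    · simp
    symm
    have hsub : m.divisors ⊆ (e * m).divisors :=
      Nat.divisors_subset_of_dvd (Nat.mul_ne_zero he.ne' hm.ne') (Dvd.intro_left e rfl)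
    rw [← Finset.sum_subset hsub]
    · apply Finset.sum_congr rfl
      intro d hd
      have hdm : d ∣ m := (Nat.mem_divisors.mp hd).1
      have h1 : e * m / d = e * (m / d) := Nat.mul_div_assoc e hdm
      have h2 : e ∣ e * m / d := by rw [h1]; exact Dvd.intro _ rfl
      have h3 : e * m / d / e = m / d := by rw [h1, Nat.mul_div_cancel_left _ he]
      rw [h3]
      simp only [h2, true_and]
    · intro d hd hdn
      have hdem : d ∣ e * m := (Nat.mem_divisors.mp hd).1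
      have hnot : ¬ e ∣ e * m / d := by
        rintro ⟨c, hc⟩
        apply hdn
        rw [Nat.mem_divisors]
        refine ⟨?_, hm.ne'⟩
        have h4 : e * m = d * (e * m / d) := (Nat.mul_div_cancel' hdem).symm
        rw [hc] at h4
        have h5 : e * m = e * (d * c) := by rw [h4]; ring
        exact Dvd.intro c (Nat.eq_of_mul_eq_mul_left he h5).symm
      simp only [hnot, false_and, if_false, add_zero]
  · apply Finset.sum_eq_zero
    intro d hd
    have hdn : d ∣ n := (Nat.mem_divisors.mp hd).1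
    have hnot : ¬ e ∣ n / d := fun h => hn (h.trans (Nat.div_dvd_of_dvd hdn))
    simp only [hnot, false_and, if_false, add_zero]

/-! ### the Laurent series versions -/

theorem dscXR_coeff (R : Type*) [CommRing R] (M : ℕ) (k : ZMod M) (n : ℤ) :
    (dscXR R M k).coeff n =
      if n < 0 then 0 else ((PowerSeries.coeff n.natAbs (dscX M k) : ℤ) : R) := by
  rw [dscXR, PowerSeries.coeff_coe, PowerSeries.coeff_map]
  rfl

/-- `X̃^{(M)}_k = ∑_{u ↦ k} X̃^{(aM)}_u` over any commutative ring. -/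
theorem dscin_XR_split (R : Type*) [CommRing R] (M a : ℕ) [NeZero M] [NeZero a] (k : ZMod M) :
    dscXR R M k = ∑ u ∈ dscinFib M a k, dscXR R (a * M) u := by
  unfold dscXR
  rw [dscin_X_split M a k, map_sum, map_sum]

/-- `X̃^{(M)}_k (q^e) = X̃^{(eM)}_{ek} (q)` over any commutative ring. -/
theorem dscin_qExpand_XR (R : Type*) [CommRing R] (M e : ℕ) [NeZero M] [NeZero e] (k : ZMod M) :
    qExpand R e (dscXR R M k) = dscXR R (e * M) (dscinMul M e k) := by
  have he : 0 < e := Nat.pos_of_ne_zero (NeZero.ne e)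
  ext n
  by_cases hn : (e : ℤ) ∣ n
  · obtain ⟨m, rfl⟩ := hn
    rw [qExpand_coeff_mul, dscXR_coeff, dscXR_coeff]
    have hlt : (e : ℤ) * m < 0 ↔ m < 0 := by
      constructor
      · intro h
        by_contra h'
        rw [not_lt] at h'
        exact absurd h (not_lt.mpr (mul_nonneg (Int.natCast_nonneg e) h'))
      · intro h
        exact mul_neg_of_pos_of_neg (by exact_mod_cast he) h
    by_cases hm : m < 0
    · rw [if_pos hm, if_pos (hlt.mpr hm)]
    · rw [if_neg hm, if_neg (fun h => hm (hlt.mp h)), dscin_X_expand]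
      have h1 : ((e : ℤ) * m).natAbs = e * m.natAbs := by
        rw [Int.natAbs_mul, Int.natAbs_natCast]
      rw [h1, if_pos (Dvd.intro _ rfl), Nat.mul_div_cancel_left _ he]
  · rw [qExpand_coeff_of_not_dvd e _ hn, dscXR_coeff]
    split_ifs with h
    · rfl
    · rw [dscin_X_expand, if_neg, Int.cast_zero]
      intro hdvd
      apply hn
      rw [not_lt] at h
      have : n = (n.natAbs : ℤ) := (Int.natAbs_of_nonneg h).symm
      rw [this]
      exact Int.natCast_dvd_natCast.mpr hdvd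

theorem dscXR_neg (R : Type*) [CommRing R] (M : ℕ) [NeZero M] (k : ZMod M) :
    dscXR R M (-k) = dscXR R M k := by
  rw [dscuo_XR_eq M (1 : R), dscuo_XR_eq M (1 : R)]
  have := dscuoX_neg M (1 : R) k 0
  rw [neg_zero] at this
  rw [this]

/-! ### differences `X'_u - X'_v` inside `(X'_1 - X'_2) · F₁(N)` -/

theorem dscin_four_le {M : ℕ} (hM : M ≠ 0) {x y z : ZMod M} (h : DscAdm M x y z) : 4 ≤ M := by
  obtain ⟨hx, hy, hz, hxy, -, hxz, -, hyz, -⟩ := h
  by_contra hlt
  rw [not_le] at hlt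
  have hpos : 0 < M := Nat.pos_of_ne_zero hM
  interval_cases M
  · revert x y z; decide
  · revert x y z; decide
  · revert x y z; decide

theorem dscin_natCast_ne_zero {N m : ℕ} (h0 : 0 < m) (h : m < N) : ((m : ℕ) : ZMod N) ≠ 0 := by
  rw [Ne, ZMod.natCast_eq_zero_iff]
  intro hd
  exact absurd (Nat.le_of_dvd h0 hd) (not_le.mpr h)

section diff

variable (K : Type*) [Field K] (N : ℕ) [NeZero N]

theorem dscin_R_mem {a b c : ZMod N} (h : DscAdm N a b c) : dscR K N a b c ∈ dscFieldC K N 1 := by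
  apply IntermediateField.subset_adjoin
  exact Or.inr ⟨1, inferInstance, a, b, c, dvd_refl 1, h, (qExpand_one_apply _).symm⟩

variable (hN : 4 ≤ N)
include hN

theorem dscin_one_two : (1 : ZMod N) ≠ 0 ∧ (2 : ZMod N) ≠ 0 ∧ (1 : ZMod N) ≠ 2 ∧
    (1 : ZMod N) ≠ -2 := by
  have h1 : ((1 : ℕ) : ZMod N) ≠ 0 := dscin_natCast_ne_zero (by omega) (by omega)
  have h2 : ((2 : ℕ) : ZMod N) ≠ 0 := dscin_natCast_ne_zero (by omega) (by omega)
  have h3 : ((3 : ℕ) : ZMod N) ≠ 0 := dscin_natCast_ne_zero (by omega) (by omega)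
  rw [Nat.cast_one] at h1
  rw [Nat.cast_ofNat] at h2 h3
  refine ⟨h1, h2, ?_, ?_⟩
  · intro h
    apply h1
    have : (2 : ZMod N) = 1 + 1 := by norm_num
    rw [this] at h
    exact (add_eq_left.mp h.symm)
  · intro h
    apply h3
    have : (3 : ZMod N) = 1 + 2 := by norm_num
    rw [this, h, neg_add_cancel]

/-- `D = X'_1 - X'_2 ≠ 0`. -/
theorem dscin_D_ne_zero : dscXR K N 1 - dscXR K N 2 ≠ 0 := by
  obtain ⟨h1, h2, h3, h4⟩ := dscin_one_two N hN
  exact dscuo_XR_sub_ne_zero K N h1 h2 h3 h4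

/-- `X'_1 - X'_u ∈ F₁(N) · (X'_1 - X'_2)` for every `u ≠ 0`. -/
theorem dscin_one_sub (u : ZMod N) (hu : u ≠ 0) :
    ∃ c ∈ dscFieldC K N 1, dscXR K N 1 - dscXR K N u = c * (dscXR K N 1 - dscXR K N 2) := by
  obtain ⟨h1, h2, h3, h4⟩ := dscin_one_two N hN
  by_cases e1 : u = 1
  · exact ⟨0, zero_mem _, by rw [e1, sub_self, zero_mul]⟩
  by_cases e2 : u = -1
  · exact ⟨0, zero_mem _, by rw [e2, dscXR_neg, sub_self, zero_mul]⟩
  by_cases e3 : u = 2
  · exact ⟨1, one_mem _, by rw [e3, one_mul]⟩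
  by_cases e4 : u = -2
  · exact ⟨1, one_mem _, by rw [e4, dscXR_neg, one_mul]⟩
  have hadm : DscAdm N 1 u 2 := by
    refine ⟨h1, hu, h2, fun h => e1 h.symm, ?_, h3, h4, e3, e4⟩
    intro h
    apply e2
    rw [h, neg_neg]
  refine ⟨dscR K N 1 u 2, dscin_R_mem K N hadm, ?_⟩
  rw [dscR, div_mul_cancel₀ _ (dscin_D_ne_zero K N hN)]

/-- sums of `X'_u` over two sets of nonzero residues of the same size differ by an element of
`F₁(N) · (X'_1 - X'_2)`. -/
theorem dscin_sum_sub (S T : Finset (ZMod N)) (hS : ∀ u ∈ S, u ≠ 0) (hT : ∀ u ∈ T, u ≠ 0)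
    (hcard : S.card = T.card) :
    ∃ c ∈ dscFieldC K N 1, ∑ u ∈ S, dscXR K N u - ∑ u ∈ T, dscXR K N u =
      c * (dscXR K N 1 - dscXR K N 2) := by
  have h : ∀ u : ZMod N, ∃ c : LaurentSeries K, u ≠ 0 →
      (c ∈ dscFieldC K N 1 ∧ dscXR K N 1 - dscXR K N u = c * (dscXR K N 1 - dscXR K N 2)) := by
    intro u
    by_cases hu : u = 0
    · exact ⟨0, fun h => absurd hu h⟩
    · obtain ⟨c, hc, he⟩ := dscin_one_sub K N hN u hu
      exact ⟨c, fun _ => ⟨hc, he⟩⟩
  choose c hc using h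
  have key : ∀ U : Finset (ZMod N), (∀ u ∈ U, u ≠ 0) →
      ∑ u ∈ U, dscXR K N u =
        (U.card : LaurentSeries K) * dscXR K N 1 -
          (∑ u ∈ U, c u) * (dscXR K N 1 - dscXR K N 2) := by
    intro U hU
    rw [Finset.sum_mul]
    have : ∀ u ∈ U, c u * (dscXR K N 1 - dscXR K N 2) = dscXR K N 1 - dscXR K N u :=
      fun u hu => ((hc u (hU u hu)).2).symm
    rw [Finset.sum_congr rfl this, Finset.sum_sub_distrib, Finset.sum_const, nsmul_eq_mul]
    ring
  refine ⟨∑ u ∈ T, c u - ∑ u ∈ S, c u, ?_, ?_⟩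
  · exact sub_mem (sum_mem fun u hu => (hc u (hT u hu)).1) (sum_mem fun u hu => (hc u (hS u hu)).1)
  · rw [key S hS, key T hT, hcard]
    ring

end diff

/-! ### the inclusion -/

theorem dscinMul_ne_zero (M e : ℕ) [NeZero M] [NeZero e] {x : ZMod M} (hx : x ≠ 0) :
    dscinMul M e x ≠ 0 := by
  intro h
  have h1 : ((0 : ℕ) : ZMod (e * M)) = dscinMul M e x := by rw [Nat.cast_zero, h]
  have h2 := ((dscin_cast_eq_mul M e x 0).mp h1).2
  apply hx
  rw [← h2, Nat.zero_div, Nat.cast_zero]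

theorem dscin_fib_ne_zero (M a : ℕ) [NeZero M] [NeZero a] {k : ZMod M} (hk : k ≠ 0) :
    ∀ u ∈ dscinFib M a k, u ≠ 0 := by
  intro u hu h0
  rw [dscin_mem_fib, h0, map_zero] at hu
  exact hk hu.symm

theorem dscin_fib_card (M a : ℕ) [NeZero M] [NeZero a] (k k' : ZMod M) :
    (dscinFib M a k).card = (dscinFib M a k').card := by
  have hsurj : Function.Surjective (dscinRed M a) := ZMod.castHom_surjective _
  unfold dscinFib
  exact AddMonoidHom.card_fiber_eq_of_mem_range (dscinRed M a) (hsurj k) (hsurj k')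

section main

variable (K : Type*) [Field K]

/-- the generator `R^{(M)}_{x,y,z}(q^e)` of level `(M, a)` lies in `F₁(a' · e · M)`. -/
theorem dscin_gen_mem (M e a' : ℕ) [NeZero M] [NeZero e] [NeZero a'] {x y z : ZMod M}
    (h : DscAdm M x y z) : qExpand K e (dscR K M x y z) ∈ dscFieldC K (a' * (e * M)) 1 := by
  have hM4 : 4 ≤ M := dscin_four_le (NeZero.ne M) h
  have h1 : 1 ≤ a' := NeZero.one_le
  have h2 : 1 ≤ e := NeZero.one_le
  have hN : 4 ≤ a' * (e * M) := by
    calc 4 ≤ M := hM4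
      _ = 1 * (1 * M) := by ring
      _ ≤ a' * (e * M) := Nat.mul_le_mul h1 (Nat.mul_le_mul h2 le_rfl)
  obtain ⟨hx, hy, hz, -⟩ := h
  have hD := dscin_D_ne_zero K (a' * (e * M)) hN
  rw [dscR, map_div₀, map_sub, map_sub, dscin_qExpand_XR, dscin_qExpand_XR, dscin_qExpand_XR,
    dscin_XR_split K (e * M) a' (dscinMul M e x), dscin_XR_split K (e * M) a' (dscinMul M e y),
    dscin_XR_split K (e * M) a' (dscinMul M e z)]
  obtain ⟨c1, hc1, e1⟩ := dscin_sum_sub K _ hN (dscinFib (e * M) a' (dscinMul M e x))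
    (dscinFib (e * M) a' (dscinMul M e y))
    (dscin_fib_ne_zero _ _ (dscinMul_ne_zero M e hx))
    (dscin_fib_ne_zero _ _ (dscinMul_ne_zero M e hy)) (dscin_fib_card _ _ _ _)
  obtain ⟨c2, hc2, e2⟩ := dscin_sum_sub K _ hN (dscinFib (e * M) a' (dscinMul M e x))
    (dscinFib (e * M) a' (dscinMul M e z))
    (dscin_fib_ne_zero _ _ (dscinMul_ne_zero M e hx))
    (dscin_fib_ne_zero _ _ (dscinMul_ne_zero M e hz)) (dscin_fib_card _ _ _ _)
  rw [e1, e2, mul_div_mul_right _ _ hD]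
  exact div_mem hc1 hc2

/-- THE FORMAL INCLUSION : the field of `X(Γ₁(M) ∩ Γ₀(a))` lies in the field of `X₁(aM)`. -/
theorem dscin_field_le (M a : ℕ) [NeZero M] [NeZero a] :
    dscFieldC K M a ≤ dscFieldC K (a * M) 1 := by
  rw [dscFieldC, IntermediateField.adjoin_le_iff]
  rintro f (⟨d, hd0, hd, rfl⟩ | ⟨e, he0, x, y, z, he, hadm, rfl⟩)
  · refine IntermediateField.subset_adjoin K _ (Or.inl ⟨d, hd0, ?_, rfl⟩)
    rw [mul_one, mul_comm]
    exact hd
  · obtain ⟨a', rfl⟩ := he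
    have ha' : NeZero a' := ⟨fun h => NeZero.ne (e * a') (by rw [h, mul_zero])⟩
    have := dscin_gen_mem K M e a' hadm
    rw [show a' * (e * M) = e * a' * M by ring] at this
    exact this

/-- in particular `F₁(M) ⊆ F₁(aM)`. -/
theorem dscin_field_le_one (M a : ℕ) [NeZero M] [NeZero a] :
    dscFieldC K M 1 ≤ dscFieldC K (a * M) 1 :=
  (dsc_field_mono K M (one_dvd a)).trans (dscin_field_le K M a)

/-- and `F₀(aM) ⊆ F₁(aM)` contains the Prelude field of `X₀(aM)` (e.g. `h_a`). -/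
theorem dscin_full_le (M a : ℕ) [NeZero M] [NeZero a] :
    modularFunctionFieldFullC K (a * M) ≤ dscFieldC K (a * M) 1 := by
  have h := dsc_full_le K (a * M) 1
  rwa [mul_one] at h

end main

end Fermat.Agent.DS
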