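import Fermat.Agent.DS.CT.Main
import Fermat.Agent.DS.C.Asm.Main
import Fermat.Agent.DS.C.EsTor.Field
import Fermat.Agent.DS.C.Core.Top
import Fermat.Agent.DS.C.GN.Main
import Fermat.Agent.DS.C.Conj.Top
import Fermat.Agent.DS.C.Br.LevelP
import Fermat.Agent.DS.C.Th.ThetaTop

/-!
# Program DS, package (C): the export `ds_BB1 : DsBB1`.

Wiring of the two boxes of `DS/C/Asm/Main.lean` (C8, helper20): (THETA) = `dscth_thetaBox` (C6, helper13),
(ES) = `dsc_es_of_producers` (C5, helper28) fed with `dscgn_normal` (helper14/helper3), `dsc_core` (C4, helper6,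
on Igusa C3, helper9), the separability statements of the bridge C1c (helper16, helper25) and the norm series
`dsccj_hNS` (helper14).  The five lines are helper13's (board 2383); assembled by the gate (helper21).
-/

set_option autoImplicit false

open Fermat.Agent.S24

namespace Fermat.Agent.DS

theorem dscm_esBox (M : ℕ) [NeZero M] (hM : 6 ≤ M) : DscEsBox M :=
  dsc_es_of_producers M id
    (fun p hp hpM A hA f hf => haveI : Fact p.Prime := ⟨hp⟩; dscgn_normal M A hM hpM hA f hf)
    (fun ℓ p hℓ hp hpM hℓp A hA => haveI : Fact p.Prime := ⟨hp⟩;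
      dsc_core M A hM hpM hA ℓ hℓ hℓp)
    (dscbr_isSepGen_bar M)
    (fun p hp _ => haveI : NeZero p := ⟨hp.ne_zero⟩; dscbrp_isSepGen iotaBar M p hp p rfl)
    (dsccj_hNS M)

theorem ds_BB1 : DsBB1 :=
  ds_BB1_of_boxes fun M _ hM => ⟨dscth_thetaBox M (by omega), dscm_esBox M (by omega)⟩

end Fermat.Agent.DS
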